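import Mathlib

/-!
# Constant field extensions of function fields, leaf (CE2): the degree does not grow
-/

set_option autoImplicit false
set_option synthInstance.maxHeartbeats 400000

open IntermediateField

namespace Fermat.Agent.FFLib

variable {K K' F F' : Type*} [Field K] [Field K'] [Field F] [Field F'] [Algebra K F] [Algebra K' F']

theorem CE2_map_mem (i : K →+* K') (ι : F →+* F')
    (hι : ∀ a, ι (algebraMap K F a) = algebraMap K' F' (i a)) (x : F) (a : F) (ha : a ∈ K⟮x⟯) :
    ι a ∈ K'⟮ι x⟯ := by
  have h : (K⟮x⟯).toSubfield ≤ (K'⟮ι x⟯).toSubfield.comap ι := by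
    apply IntermediateField.adjoin_le_subfield
    · rintro _ ⟨c, rfl⟩
      show ι (algebraMap K F c) ∈ K'⟮ι x⟯
      rw [hι]
      exact (K'⟮ι x⟯).algebraMap_mem _
    · intro y hy
      rw [Set.mem_singleton_iff] at hy
      subst hy
      exact mem_adjoin_simple_self K' (ι y)
  exact h ha

/-- (CE2) the degree does not grow -/
theorem ce_finrank_le (i : K →+* K') (ι : F →+* F')
    (hι : ∀ a, ι (algebraMap K F a) = algebraMap K' F' (i a))
    (hgen : IntermediateField.adjoin K' (Set.range ι) = ⊤) (x : F)
    (hfin : FiniteDimensional K⟮x⟯ F) :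
    FiniteDimensional K'⟮ι x⟯ F' ∧ Module.finrank K'⟮ι x⟯ F' ≤ Module.finrank K⟮x⟯ F := by
  set b := Module.finBasis K⟮x⟯ F with hb
  set S : Submodule K'⟮ι x⟯ F' := Submodule.span K'⟮ι x⟯ (Set.range fun j => ι (b j)) with hS
  -- the image of `ι` lies in `S`
  have h1 : ∀ f : F, ι f ∈ S := by
    intro f
    rw [← b.sum_repr f, map_sum]
    refine sum_mem fun j _ => ?_
    have e : ι (b.repr f j • b j) =
        (⟨ι (b.repr f j : F), CE2_map_mem i ι hι x _ (b.repr f j).2⟩ : K'⟮ι x⟯) • ι (b j) := by
      rw [Algebra.smul_def, Algebra.smul_def, map_mul]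
      rfl
    rw [e]
    exact S.smul_mem _ (Submodule.subset_span ⟨j, rfl⟩)
  -- the subalgebra generated by the image
  set T : Subalgebra K'⟮ι x⟯ F' := Algebra.adjoin K'⟮ι x⟯ (Set.range ι) with hT
  have h2 : Subalgebra.toSubmodule T ≤ S := by
    rw [hT, Algebra.adjoin_eq_span]
    have hc : (Submonoid.closure (Set.range ι) : Set F') = Set.range ι := by
      have : Set.range ι = ((MonoidHom.mrange (ι : F →* F') : Submonoid F') : Set F') := by
        ext y; simp
      rw [this, Submonoid.closure_eq]
    rw [hc, Submodule.span_le]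
    rintro _ ⟨f, rfl⟩
    exact h1 f
  have hSfin : Module.Finite K'⟮ι x⟯ S := Module.Finite.span_of_finite _ (Set.finite_range _)
  have hTfin : Module.Finite K'⟮ι x⟯ T := by
    have : Module.Finite K'⟮ι x⟯ (Subalgebra.toSubmodule T) :=
      Submodule.finiteDimensional_of_le h2
    exact this
  have hTfield : IsField T :=
    isField_of_isIntegral_of_isField' (R := K'⟮ι x⟯) (Field.toIsField _)
  have h3 : ∀ y : F', y ∈ T := by
    intro y
    have h4 : IntermediateField.adjoin K' (Set.range ι) ≤
        (T.toIntermediateField' hTfield).restrictScalars K' := by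
      rw [IntermediateField.adjoin_le_iff]
      intro z hz
      exact Algebra.subset_adjoin hz
    have h5 : y ∈ IntermediateField.adjoin K' (Set.range ι) := by rw [hgen]; trivial
    exact h4 h5
  have hStop : S = ⊤ := by
    rw [eq_top_iff]
    intro y _
    exact h2 (h3 y)
  have hfin' : FiniteDimensional K'⟮ι x⟯ F' := by
    refine Module.finite_def.mpr ?_
    rw [← hStop]
    exact Submodule.fg_span (Set.finite_range _)
  refine ⟨hfin', ?_⟩
  have h6 := finrank_range_le_card (R := K'⟮ι x⟯) (fun j => ι (b j))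
  rw [Set.finrank, ← hS, hStop, finrank_top, Fintype.card_fin] at h6
  exact h6

end Fermat.Agent.FFLib
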