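import Fermat.Agent.S24.PlaceBasic
import Fermat.Agent.S24.PlaceOfOrder

/-! # Constant field extensions of function fields (CE1): restriction of a place -/

set_option autoImplicit false

open AlgebraicCurve IntermediateField

namespace Fermat.Agent.FFLib

open Fermat.Agent.S24Lib

variable {K K' F F' : Type*} [Field K] [Field K'] [Field F] [Field F'] [Algebra K F] [Algebra K' F']

/-- (CE1) restriction of a place -/
theorem ce_restrict (i : K →+* K') (ι : F →+* F')
    (hι : ∀ a, ι (algebraMap K F a) = algebraMap K' F' (i a)) (v : Place K' F') :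
    (∀ f : F, v.ord (ι f) = 0) ∨
      ∃ (P : Place K F) (e : ℕ), 0 < e ∧ ∀ f : F, v.ord (ι f) = e * P.ord f := by
  by_cases hnt : ∃ f : F, f ≠ 0 ∧ v.ord (ι f) ≠ 0
  · right
    have hne : ∀ f : F, f ≠ 0 → ι f ≠ 0 := fun f hf => (map_ne_zero ι).mpr hf
    obtain ⟨P, e, he, hP⟩ := exists_place_of_order (K := K) (fun f : F => v.ord (ι f))
      (fun f g hf hg => by
        show v.ord (ι (f * g)) = _
        rw [map_mul, Place.ord_mul v (hne f hf) (hne g hg)])
      (fun f g hf hg hfg => by
        show _ ≤ v.ord (ι (f + g))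
        rw [map_add]
        exact min_le_ord_add v (by rw [← map_add]; exact hne _ hfg))
      (fun a _ => by
        show v.ord (ι (algebraMap K F a)) = 0
        rw [hι, ord_algebraMap])
      hnt
    refine ⟨P, e, he, fun f => ?_⟩
    rcases eq_or_ne f 0 with rfl | hf
    · simp
    · exact hP f hf
  · left
    intro f
    rcases eq_or_ne f 0 with rfl | hf
    · simp
    · by_contra h
      exact hnt ⟨f, hf, h⟩

end Fermat.Agent.FFLib
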