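import Fermat.Agent.Lib.FF.Riemann
import Fermat.Agent.Lib.FF.ConstExtRestrict
import Fermat.Agent.Lib.FF.ConstExtDegree

/-! # Constant field extensions of function fields (CE3): every place extends, unramified -/

set_option autoImplicit false

open AlgebraicCurve IntermediateField

namespace Fermat.Agent.FFLib

open Fermat.Agent.S24Lib

variable {K K' F F' : Type*} [Field K] [Field K'] [Field F] [Field F'] [Algebra K F] [Algebra K' F']

/-- a non-constant function has a pole -/
theorem ce3_exists_pole [IsAlgClosed K] (hF : IsFF K F) {x : F} (hx : x ∉ (algebraMap K F).range) :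
    ∃ v : Place K F, v.ord x < 0 := by
  by_contra hcon
  push Not at hcon
  apply hx
  rw [← mem_L_zero_iff hF, mem_L_iff]
  intro v
  right
  simpa using hcon v

/-- a coefficient of an effective divisor is at most the degree -/
theorem ce3_le_degree [IsAlgClosed K] (hF : IsFF K F) {D : Divisor K F} (hD : 0 ≤ D)
    (v : Place K F) : D v ≤ Divisor.degree D := by
  classical
  rw [degree_eq_sum hF D (insert v D.support) (Finset.subset_insert _ _)]
  exact Finset.single_le_sum (f := fun w => D w) (fun w _ => hD w) (Finset.mem_insert_self _ _)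

/-- a function whose only pole is `P` -/
theorem ce3_exists_only_pole [IsAlgClosed K] (hF : IsFF K F) (P : Place K F) :
    ∃ x : F, x ∉ (algebraMap K F).range ∧ ∀ Q : Place K F, Q ≠ P → 0 ≤ Q.ord x := by
  classical
  set A : Divisor K F := Finsupp.single P ((genusR K F : ℤ) + 1) with hA
  have hell : 2 ≤ ell A := by
    have h1 := riemann_inequality hF A
    have h2 : Divisor.degree A = (genusR K F : ℤ) + 1 := by rw [hA, degree_single' hF]
    rw [h2] at h1
    omega
  obtain ⟨x, hxA, hxc⟩ : ∃ x ∈ riemannRochSpace A, x ∉ (algebraMap K F).range := by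
    by_contra hcon
    push Not at hcon
    have hle : riemannRochSpace A ≤ riemannRochSpace (0 : Divisor K F) :=
      fun f hf => (mem_L_zero_iff hF f).mpr (hcon f hf)
    have := finiteDimensional_L hF (0 : Divisor K F)
    have h2 := Submodule.finrank_mono hle
    have h3 := ell_zero hF
    unfold ell at hell h3
    omega
  refine ⟨x, hxc, fun Q hQ => ?_⟩
  have hx0 : x ≠ 0 := by
    rintro rfl
    exact hxc ⟨0, map_zero _⟩
  rcases (mem_L_iff.mp hxA) Q with h | h
  · exact absurd h hx0
  · rwa [hA, Finsupp.single_apply, if_neg (Ne.symm hQ), neg_zero] at h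

/-- (CE3) every place extends, without ramification -/
theorem ce_extend [IsAlgClosed K] [IsAlgClosed K'] (hF : IsFF K F) (hF' : IsFF K' F')
    (i : K →+* K') (ι : F →+* F')
    (hι : ∀ a, ι (algebraMap K F a) = algebraMap K' F' (i a))
    (hgen : IntermediateField.adjoin K' (Set.range ι) = ⊤)
    (hconst : ∀ f : F, ι f ∈ Set.range (algebraMap K' F') → f ∈ Set.range (algebraMap K F))
    (P : Place K F) : ∃ v : Place K' F', ∀ f : F, v.ord (ι f) = P.ord f := by
  classical
  obtain ⟨x, hxc, hxQ⟩ := ce3_exists_only_pole hF P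
  have hxP : P.ord x < 0 := by
    obtain ⟨Q, hQ⟩ := ce3_exists_pole hF hxc
    by_cases h : Q = P
    · rwa [h] at hQ
    · exact absurd (hxQ Q h) (not_le.mpr hQ)
  have hxtr : Transcendental K x := transcendental_of_not_mem_range hxc
  have hpole : poleDiv K x = Finsupp.single P (-P.ord x) := by
    ext Q
    rw [poleDiv_apply hF, Finsupp.single_apply]
    split_ifs with h
    · rw [← h]; exact max_eq_left (by omega)
    · exact max_eq_right (by have := hxQ Q (Ne.symm h); omega)
  have hdeg : (Module.finrank K⟮x⟯ F : ℤ) = -P.ord x := by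
    rw [← degree_poleDiv hF hxtr, hpole, degree_single' hF]
  have hyc : ι x ∉ (algebraMap K' F').range := by
    intro h
    obtain ⟨a, ha⟩ := hconst x (by obtain ⟨a, ha⟩ := h; exact ⟨a, ha⟩)
    exact hxc ⟨a, ha⟩
  have hytr : Transcendental K' (ι x) := transcendental_of_not_mem_range hyc
  obtain ⟨v, hv⟩ := ce3_exists_pole hF' hyc
  rcases ce_restrict i ι hι v with h0 | ⟨P', e, he, hP'⟩
  · rw [h0 x] at hv
    exact absurd hv (lt_irrefl _)
  have hP'x : P'.ord x < 0 := by
    rw [hP' x] at hv
    by_contra hcon
    push Not at hcon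
    have : (0 : ℤ) ≤ e * P'.ord x := by positivity
    omega
  have hPP : P' = P := by
    by_contra h
    exact absurd (hxQ P' h) (not_le.mpr hP'x)
  subst hPP
  have h1 := ce3_le_degree hF' (dg_poleDiv_nonneg hF' (ι x)) v
  rw [poleDiv_apply hF', degree_poleDiv hF' hytr, hP' x] at h1
  have h2 := (ce_finrank_le i ι hι hgen x (IsFF.finiteDimensional hF hxtr)).2
  have h3 : ((Module.finrank K'⟮ι x⟯ F' : ℕ) : ℤ) ≤ -P'.ord x := by
    rw [← hdeg]; exact_mod_cast h2
  have h4 : -((e : ℤ) * P'.ord x) ≤ -P'.ord x := le_trans (le_trans (le_max_left _ _) h1) h3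
  have he1 : e = 1 := by
    have he' : (1 : ℤ) ≤ e := by exact_mod_cast he
    have : (e : ℤ) ≤ 1 := by
      by_contra hcon
      push Not at hcon
      nlinarith
    omega
  refine ⟨v, fun f => ?_⟩
  rw [hP' f, he1]
  simp

end Fermat.Agent.FFLib
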