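import Fermat.Agent.Lib.FF.Defs

/-!
# (LI) a linear independence criterion over `K(x)`
-/

set_option autoImplicit false

open AlgebraicCurve IntermediateField Polynomial Fermat.Agent.S24Lib

namespace Fermat.Agent.FFLib

variable {K F : Type*} [Field K] [Field F] [Algebra K F]

theorem li_X_pow_dvd {ι : Type*} [Fintype ι] (x : F) (hx : x ≠ 0) (w : ι → F)
    (hw : ∀ φ : ι → K[X], ∑ i, aeval x (φ i) * w i = 0 → ∀ i, (φ i).coeff 0 = 0) (n : ℕ) :
    ∀ φ : ι → K[X], ∑ i, aeval x (φ i) * w i = 0 → ∀ i, (X : K[X]) ^ n ∣ φ i := by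
  induction n with
  | zero => intro φ _ i; simp
  | succ n ih =>
    intro φ hφ i
    have h0 := hw φ hφ
    have hdiv : ∀ j, φ j = X * (φ j).divX := by
      intro j
      have := (φ j).divX_mul_X_add
      rw [h0 j, C_0, add_zero] at this
      rw [mul_comm]; exact this.symm
    have h1 : ∑ j, aeval x ((φ j).divX) * w j = 0 := by
      have h2 : x * ∑ j, aeval x ((φ j).divX) * w j = 0 := by
        rw [Finset.mul_sum, ← hφ]
        refine Finset.sum_congr rfl fun j _ => ?_
        conv_rhs => rw [hdiv j]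
        rw [map_mul, aeval_X, mul_assoc]
      exact (mul_eq_zero.mp h2).resolve_left hx
    obtain ⟨c, hc⟩ := ih _ h1 i
    rw [hdiv i, hc, pow_succ']
    exact ⟨c, by ring⟩

theorem li_eq_zero {ι : Type*} [Fintype ι] (x : F) (hx : x ≠ 0) (w : ι → F)
    (hw : ∀ φ : ι → K[X], ∑ i, aeval x (φ i) * w i = 0 → ∀ i, (φ i).coeff 0 = 0)
    (φ : ι → K[X]) (hφ : ∑ i, aeval x (φ i) * w i = 0) (i : ι) : φ i = 0 := by
  have h := li_X_pow_dvd x hx w hw ((φ i).natDegree + 1) φ hφ i
  refine Polynomial.eq_zero_of_dvd_of_natDegree_lt h ?_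
  rw [natDegree_X_pow]
  exact Nat.lt_succ_self _

theorem li_exists_frac (x : F) (y : K⟮x⟯) :
    ∃ r s : K[X], aeval x s ≠ 0 ∧ (y : F) * aeval x s = aeval x r := by
  obtain ⟨r, s, h⟩ := (IntermediateField.mem_adjoin_simple_iff K (y : F)).mp y.2
  by_cases hs : aeval x s = 0
  · refine ⟨0, 1, by simp, ?_⟩
    rw [h, hs]; simp
  · refine ⟨r, s, hs, ?_⟩
    rw [h, div_mul_cancel₀ _ hs]

theorem li_linearIndependent {ι : Type*} [Fintype ι] (x : F) (hx : x ≠ 0) (w : ι → F)
    (hw : ∀ φ : ι → K[X], ∑ i, aeval x (φ i) * w i = 0 → ∀ i, (φ i).coeff 0 = 0) :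
    LinearIndependent K⟮x⟯ w := by
  classical
  rw [Fintype.linearIndependent_iff]
  intro g hg i
  choose r s hs hrs using fun j => li_exists_frac (K := K) x (g j)
  set d : F := ∏ j, aeval x (s j) with hd
  have hd0 : d ≠ 0 := Finset.prod_ne_zero_iff.mpr fun j _ => hs j
  let φ : ι → K[X] := fun j => r j * ∏ k ∈ Finset.univ.erase j, s k
  have hφ : ∀ j, aeval x (φ j) = (g j : F) * d := by
    intro j
    show aeval x (r j * ∏ k ∈ Finset.univ.erase j, s k) = _
    rw [map_mul, map_prod, ← hrs j, hd, mul_assoc,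
      Finset.mul_prod_erase Finset.univ (fun k => aeval x (s k)) (Finset.mem_univ j)]
  have hsum : ∑ j, aeval x (φ j) * w j = 0 := by
    have h1 : ∑ j, aeval x (φ j) * w j = d * ∑ j, g j • w j := by
      rw [Finset.mul_sum]
      refine Finset.sum_congr rfl fun j _ => ?_
      rw [hφ j, IntermediateField.smul_def, smul_eq_mul]
      ring
    rw [h1, hg, mul_zero]
  have h0 := li_eq_zero x hx w hw φ hsum i
  have h2 := hφ i
  rw [h0, map_zero] at h2
  have h3 : (g i : F) = 0 := (mul_eq_zero.mp h2.symm).resolve_right hd0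
  exact_mod_cast h3

theorem card_le_finrank_of_indep {ι : Type*} [Fintype ι] (x : F) (hx : x ≠ 0)
    [FiniteDimensional K⟮x⟯ F] (w : ι → F)
    (hw : ∀ φ : ι → K[X], ∑ i, aeval x (φ i) * w i = 0 → ∀ i, (φ i).coeff 0 = 0) :
    Fintype.card ι ≤ Module.finrank K⟮x⟯ F :=
  (li_linearIndependent x hx w hw).fintype_card_le_finrank

end Fermat.Agent.FFLib
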