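import Fermat.Agent.Lib.FF.Defs
import Fermat.Agent.Lib.FF.LinIndep

/-!
# (VR) valuation rings of a function field are places; existence of zeros (Chevalley)
-/

set_option autoImplicit false

open AlgebraicCurve IntermediateField Polynomial Fermat.Agent.S24Lib

namespace Fermat.Agent.FFLib

variable {K F : Type*} [Field K] [Field F] [Algebra K F]

theorem vr_aeval_mem (O : ValuationSubring F) (hK : ∀ a : K, algebraMap K F a ∈ O) {x : F}
    (hx : x ∈ O) (φ : K[X]) : aeval x φ ∈ O := by
  induction φ using Polynomial.induction_on' with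
  | add p q hp hq => rw [map_add]; exact add_mem hp hq
  | monomial n a =>
    rw [aeval_monomial]
    exact mul_mem (hK a) (pow_mem hx n)

theorem vr_valuation_algebraMap (O : ValuationSubring F) (hK : ∀ a : K, algebraMap K F a ∈ O)
    {a : K} (ha : a ≠ 0) : O.valuation (algebraMap K F a) = 1 := by
  have h1 : O.valuation (algebraMap K F a) ≤ 1 := (O.valuation_le_one_iff _).mpr (hK a)
  have h2 : O.valuation (algebraMap K F a⁻¹) ≤ 1 := (O.valuation_le_one_iff _).mpr (hK a⁻¹)
  have h3 : O.valuation (algebraMap K F a) * O.valuation (algebraMap K F a⁻¹) = 1 := by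
    rw [← map_mul, ← map_mul, mul_inv_cancel₀ ha, map_one, map_one]
  refine le_antisymm h1 ?_
  calc (1 : O.ValueGroup) = O.valuation (algebraMap K F a) * O.valuation (algebraMap K F a⁻¹) :=
        h3.symm
    _ ≤ O.valuation (algebraMap K F a) * 1 := mul_le_mul_right h2 _
    _ = _ := mul_one _

theorem vr_aeval_eq (x : F) (φ : K[X]) :
    aeval x φ = algebraMap K F (φ.coeff 0) + x * aeval x φ.divX := by
  conv_lhs => rw [← φ.divX_mul_X_add]
  rw [map_add, map_mul, aeval_X, aeval_C]
  ring

theorem vr_valuation_aeval_eq_one (O : ValuationSubring F) (hK : ∀ a : K, algebraMap K F a ∈ O)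
    {x : F} (hx : O.valuation x < 1) (φ : K[X]) (hφ : φ.coeff 0 ≠ 0) :
    O.valuation (aeval x φ) = 1 := by
  have hxO : x ∈ O := (O.valuation_le_one_iff _).mp hx.le
  have h1 : O.valuation (x * aeval x φ.divX) < 1 := by
    rw [map_mul]
    calc O.valuation x * O.valuation (aeval x φ.divX) ≤ O.valuation x * 1 :=
          mul_le_mul_right ((O.valuation_le_one_iff _).mpr (vr_aeval_mem O hK hxO _)) _
      _ = O.valuation x := mul_one _
      _ < 1 := hx
  rw [vr_aeval_eq, ← vr_valuation_algebraMap O hK hφ]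
  apply Valuation.map_add_eq_of_lt_left
  rw [vr_valuation_algebraMap O hK hφ]
  exact h1

theorem vr_valuation_aeval_le (O : ValuationSubring F) (hK : ∀ a : K, algebraMap K F a ∈ O)
    {x : F} (hx : x ∈ O) (φ : K[X]) (hφ : φ.coeff 0 = 0) :
    O.valuation (aeval x φ) ≤ O.valuation x := by
  rw [vr_aeval_eq, hφ, map_zero, zero_add, map_mul]
  calc O.valuation x * O.valuation (aeval x φ.divX) ≤ O.valuation x * 1 :=
        mul_le_mul_right ((O.valuation_le_one_iff _).mpr (vr_aeval_mem O hK hx _)) _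
    _ = O.valuation x := mul_one _

/-- chain lemma (Stichtenoth 1.1.7) -/
theorem vr_chain (O : ValuationSubring F) (hK : ∀ a : K, algebraMap K F a ∈ O) (b : ℕ → F)
    (hb0 : ∀ i, b i ≠ 0) (hlt : ∀ i, O.valuation (b i) < O.valuation (b (i + 1)))
    (hb1 : ∀ i, O.valuation (b i) < 1) [FiniteDimensional K⟮b 0⟯ F] (n : ℕ) :
    n ≤ Module.finrank K⟮b 0⟯ F := by
  classical
  have hmono : StrictMono fun i => O.valuation (b i) := strictMono_nat_of_lt_succ hlt
  have key := card_le_finrank_of_indep (K := K) (ι := Fin n) (b 0) (hb0 0)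
    (fun i => b (i : ℕ)) ?_
  · simpa using key
  intro φ hφ
  by_contra hcon
  push Not at hcon
  set s : Finset (Fin n) := Finset.univ.filter fun i => (φ i).coeff 0 ≠ 0 with hs
  have hne : s.Nonempty := by
    obtain ⟨i, hi⟩ := hcon
    exact ⟨i, by simp [hs, hi]⟩
  set j := s.max' hne with hj
  have hjs : (φ j).coeff 0 ≠ 0 := by
    have := s.max'_mem hne
    exact (Finset.mem_filter.mp this).2
  have hgt : ∀ i : Fin n, j < i → (φ i).coeff 0 = 0 := by
    intro i hi
    by_contra h
    have : i ∈ s := by simp [hs, h]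
    exact absurd (s.le_max' i this) (not_le.mpr hi)
  have hx0 : b 0 ∈ O := (O.valuation_le_one_iff _).mp (hb1 0).le
  have hvj : O.valuation (b j) ≠ 0 := (Valuation.ne_zero_iff _).mpr (hb0 j)
  have hothers : O.valuation (∑ i ∈ Finset.univ.erase j, aeval (b 0) (φ i) * b (i : ℕ))
      < O.valuation (b j) := by
    refine Valuation.map_sum_lt _ hvj fun i hi => ?_
    have hij : i ≠ j := Finset.ne_of_mem_erase hi
    rw [map_mul]
    rcases lt_or_gt_of_ne hij with h | h
    · calc O.valuation (aeval (b 0) (φ i)) * O.valuation (b i) ≤ 1 * O.valuation (b i) :=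
            mul_le_mul_left ((O.valuation_le_one_iff _).mpr (vr_aeval_mem O hK hx0 _)) _
        _ = O.valuation (b i) := one_mul _
        _ < O.valuation (b j) := hmono h
    · have h0 : O.valuation (b 0) ≠ 0 := (Valuation.ne_zero_iff _).mpr (hb0 0)
      calc O.valuation (aeval (b 0) (φ i)) * O.valuation (b i)
          ≤ O.valuation (b 0) * O.valuation (b i) :=
            mul_le_mul_left (vr_valuation_aeval_le O hK hx0 _ (hgt i h)) _
        _ < O.valuation (b 0) * 1 :=
            mul_lt_mul_of_pos_left (hb1 i) (zero_lt_iff.mpr h0)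
        _ = O.valuation (b 0) := mul_one _
        _ ≤ O.valuation (b j) := hmono.monotone (Nat.zero_le _)
  have hsplit := Finset.add_sum_erase Finset.univ (fun i : Fin n => aeval (b 0) (φ i) * b (i : ℕ))
    (Finset.mem_univ j)
  rw [hφ] at hsplit
  have hterm : aeval (b 0) (φ j) * b (j : ℕ)
      = -∑ i ∈ Finset.univ.erase j, aeval (b 0) (φ i) * b (i : ℕ) :=
    eq_neg_of_add_eq_zero_left hsplit
  have hval : O.valuation (aeval (b 0) (φ j) * b (j : ℕ)) = O.valuation (b j) := by
    rw [map_mul, vr_valuation_aeval_eq_one O hK (hb1 0) _ hjs, one_mul]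
  rw [hterm, Valuation.map_neg] at hval
  exact absurd hval hothers.ne

theorem vr_transcendental (O : ValuationSubring F) (hK : ∀ a : K, algebraMap K F a ∈ O) {x : F}
    (hx0 : x ≠ 0) (hx : O.valuation x < 1) : Transcendental K x := by
  intro halg
  let _ : Algebra K O := ((algebraMap K F).codRestrict O.toSubring hK).toAlgebra
  have : IsScalarTower K O F := IsScalarTower.of_algebraMap_eq fun a => rfl
  have h1 : IsIntegral O x⁻¹ := halg.inv.isIntegral.tower_top
  obtain ⟨a, ha⟩ := IsIntegrallyClosed.isIntegral_iff.mp h1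
  have h2 : x⁻¹ ∈ O := by rw [← ha]; exact a.2
  have h3 : O.valuation x⁻¹ ≤ 1 := (O.valuation_le_one_iff _).mpr h2
  rw [map_inv₀] at h3
  have h4 : O.valuation x ≠ 0 := (Valuation.ne_zero_iff _).mpr hx0
  have h5 : 1 ≤ O.valuation x := (inv_le_one₀ (zero_lt_iff.mpr h4)).mp h3
  exact absurd hx (not_lt.mpr h5)

theorem vr_wfDvdMonoid (h : IsFF K F) (O : ValuationSubring F)
    (hK : ∀ a : K, algebraMap K F a ∈ O) : WfDvdMonoid O := by
  refine ⟨wellFounded_iff_isEmpty_descending_chain.mpr ⟨?_⟩⟩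
  rintro ⟨a, ha⟩
  -- the shifted chain consists of nonzero nonunits
  have hne : ∀ i, a (i + 1) ≠ 0 := fun i => (ha i).1
  choose c hc hac using fun i => (ha i).2
  have hcv : ∀ i, O.valuation (c i : F) < 1 := by
    intro i
    rcases O.valuation_lt_one_or_eq_one (c i) with h1 | h1
    · exact h1
    · exact absurd ((O.valuation_eq_one_iff _).mpr h1) (hc i)
  let b : ℕ → F := fun i => (a (i + 1) : F)
  have hb0 : ∀ i, b i ≠ 0 := fun i => by
    show (a (i + 1) : F) ≠ 0
    simpa using hne i
  have hbv : ∀ i, O.valuation (b i) = O.valuation (b (i + 1)) * O.valuation (c (i + 1) : F) := by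
    intro i
    show O.valuation (a (i + 1) : F) = O.valuation (a (i + 1 + 1) : F) * _
    rw [← map_mul, hac (i + 1)]
    rfl
  have hlt : ∀ i, O.valuation (b i) < O.valuation (b (i + 1)) := by
    intro i
    rw [hbv i]
    have h0 : O.valuation (b (i + 1)) ≠ 0 := (Valuation.ne_zero_iff _).mpr (hb0 _)
    calc O.valuation (b (i + 1)) * O.valuation (c (i + 1) : F) < O.valuation (b (i + 1)) * 1 :=
          mul_lt_mul_of_pos_left (hcv _) (zero_lt_iff.mpr h0)
      _ = _ := mul_one _
  have hb1 : ∀ i, O.valuation (b i) < 1 := fun i =>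
    lt_of_lt_of_le (hlt i) (O.valuation_le_one (a (i + 1 + 1)))
  have : FiniteDimensional K⟮b 0⟯ F :=
    h.finiteDimensional (vr_transcendental O hK (hb0 0) (hb1 0))
  have := vr_chain O hK b hb0 hlt hb1 (Module.finrank K⟮b 0⟯ F + 1)
  omega

theorem exists_place_of_valuationSubring (h : IsFF K F) (O : ValuationSubring F)
    (hK : ∀ a : K, algebraMap K F a ∈ O) (hO : O ≠ ⊤) :
    ∃ v : Place K F, v.toValuationSubring = O := by
  have hw : WfDvdMonoid O := vr_wfDvdMonoid h O hK
  have hpid : IsPrincipalIdealRing O := ((IsBezout.TFAE (R := O)).out 1 3).mpr hw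
  exact ⟨⟨O, hK, hO, hpid⟩, rfl⟩

theorem exists_place_ord_pos (h : IsFF K F) {x : F} (hx : Transcendental K x) :
    ∃ v : Place K F, 0 < v.ord x := by
  set R : Subring F := (Algebra.adjoin K {x}).toSubring with hR
  have hxR : x ∈ R := Algebra.self_mem_adjoin_singleton K x
  have hx0 : x ≠ 0 := fun h0 => hx (h0 ▸ isAlgebraic_zero)
  have hI : Ideal.span {(⟨x, hxR⟩ : R)} ≠ ⊤ := by
    intro htop
    rw [Ideal.span_singleton_eq_top] at htop
    obtain ⟨⟨y, hy⟩, hxy⟩ := isUnit_iff_exists_inv.mp htop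
    have hy' : y ∈ Algebra.adjoin K {x} := hy
    rw [Algebra.adjoin_singleton_eq_range_aeval] at hy'
    obtain ⟨g, rfl⟩ := hy'
    have h1 : x * aeval x g = 1 := congrArg Subtype.val hxy
    have h2 : aeval x (X * g - 1 : K[X]) = 0 := by
      rw [map_sub, map_mul, aeval_X, map_one, h1, sub_self]
    have h3 : (X * g - 1 : K[X]) = 0 := by
      by_contra hne
      exact hx ⟨_, hne, h2⟩
    have h4 := congrArg (fun p : K[X] => p.coeff 0) h3
    simp at h4
  obtain ⟨O, hRO, hnon⟩ := Ideal.image_subset_nonunits_valuationSubring _ hI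
  have hK : ∀ a : K, algebraMap K F a ∈ O := fun a =>
    hRO ((Algebra.adjoin K {x}).algebraMap_mem a)
  have hxnon : x ∈ O.nonunits :=
    hnon ⟨⟨x, hxR⟩, Ideal.subset_span rfl, rfl⟩
  have hxv : O.valuation x < 1 := (ValuationSubring.mem_nonunits_iff O).mp hxnon
  have hinv : x⁻¹ ∉ O := by
    intro hmem
    have h3 : O.valuation x⁻¹ ≤ 1 := (O.valuation_le_one_iff _).mpr hmem
    rw [map_inv₀] at h3
    have h4 : O.valuation x ≠ 0 := (Valuation.ne_zero_iff _).mpr hx0
    have h5 : 1 ≤ O.valuation x := (inv_le_one₀ (zero_lt_iff.mpr h4)).mp h3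
    exact absurd hxv (not_lt.mpr h5)
  have hO : O ≠ ⊤ := fun htop => hinv (htop ▸ ValuationSubring.mem_top _)
  obtain ⟨v, hv⟩ := exists_place_of_valuationSubring h O hK hO
  refine ⟨v, ?_⟩
  have h1 : ¬ 0 ≤ v.ord x⁻¹ := by
    rw [← mem_valuationSubring_iff, hv]; exact hinv
  rw [v.ord_inv] at h1
  omega

end Fermat.Agent.FFLib
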