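import Fermat.Agent.Lib.FF.Defs

/-!
# Weak approximation for places of a function field (Stichtenoth 1.3.1)
-/

set_option autoImplicit false

open AlgebraicCurve IntermediateField Polynomial Fermat.Agent.S24Lib

namespace Fermat.Agent.FFLib

variable {K F : Type*} [Field K] [Field F] [Algebra K F]

theorem wa_bound {ι : Type*} (s : Finset ι) (f : ι → ℤ) : ∃ M : ℤ, ∀ i ∈ s, f i ≤ M := by
  classical
  obtain ⟨M, hM⟩ := (s.image f).exists_le
  exact ⟨M, fun i hi => hM _ (Finset.mem_image_of_mem f hi)⟩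

theorem wa_ne_zero_of_ord_ne {v : Place K F} {u : F} (h : v.ord u ≠ 0) : u ≠ 0 := by
  rintro rfl
  simp at h

theorem wa_ord_pow (v : Place K F) (u : F) (m : ℕ) : v.ord (u ^ m) = m * v.ord u := by
  rw [← zpow_natCast, v.ord_zpow]

theorem wa_step1 {v w : Place K F} (h : v ≠ w) : ∃ u : F, 0 < v.ord u ∧ w.ord u < 0 := by
  have h1 : ∃ f, 0 ≤ v.ord f ∧ w.ord f < 0 := by
    by_contra hc
    push Not at hc
    exact h (place_ext_of_ord hc)
  have h2 : ∃ g, 0 ≤ w.ord g ∧ v.ord g < 0 := by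
    by_contra hc
    push Not at hc
    exact h (place_ext_of_ord hc).symm
  obtain ⟨f, hf1, hf2⟩ := h1
  obtain ⟨g, hg1, hg2⟩ := h2
  have hf0 : f ≠ 0 := wa_ne_zero_of_ord_ne hf2.ne
  have hg0 : g ≠ 0 := wa_ne_zero_of_ord_ne hg2.ne
  refine ⟨f * g⁻¹, ?_, ?_⟩
  · rw [v.ord_mul hf0 (inv_ne_zero hg0), v.ord_inv]; omega
  · rw [w.ord_mul hf0 (inv_ne_zero hg0), w.ord_inv]; omega

theorem wa_mul_neg {m : ℕ} {a : ℤ} (ha : a < 0) : (m : ℤ) * a ≤ -(m : ℤ) := by
  have h1 : (0 : ℤ) ≤ m := Int.natCast_nonneg m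
  nlinarith

theorem wa_mul_pos {m : ℕ} {a : ℤ} (ha : 0 < a) : (m : ℤ) ≤ (m : ℤ) * a := by
  have h1 : (0 : ℤ) ≤ m := Int.natCast_nonneg m
  nlinarith

theorem wa_step2 (v : Place K F) (t : Finset (Place K F)) (hv : v ∉ t) :
    ∃ u : F, 0 < v.ord u ∧ ∀ w ∈ t, w.ord u < 0 := by
  classical
  induction t using Finset.induction_on with
  | empty =>
    obtain ⟨π, hπ⟩ := exists_ord_eq_one v
    exact ⟨π, by omega, by simp⟩
  | insert w0 t hw0 ih =>
    have hv' : v ∉ t := fun h => hv (Finset.mem_insert_of_mem h)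
    have hvw0 : v ≠ w0 := fun h => hv (h ▸ Finset.mem_insert_self _ _)
    obtain ⟨y, hy1, hy2⟩ := ih hv'
    by_cases hc : w0.ord y < 0
    · refine ⟨y, hy1, fun w hw => ?_⟩
      rcases Finset.mem_insert.1 hw with rfl | hw
      · exact hc
      · exact hy2 w hw
    push Not at hc
    obtain ⟨z, hz1, hz2⟩ := wa_step1 hvw0
    obtain ⟨M, hM⟩ := wa_bound t (fun w => - w.ord y)
    obtain ⟨m, hm1, hmM⟩ : ∃ m : ℕ, 1 ≤ m ∧ M < m :=
      ⟨M.toNat + 1, by omega, by have := Int.self_le_toNat M; push_cast; omega⟩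
    have hy0 : y ≠ 0 := wa_ne_zero_of_ord_ne hy1.ne'
    have hz0 : z ≠ 0 := wa_ne_zero_of_ord_ne hz1.ne'
    have hzm0 : z ^ m ≠ 0 := pow_ne_zero _ hz0
    have hm1' : (1 : ℤ) ≤ m := by exact_mod_cast hm1
    have hw0z : w0.ord (z ^ m) < 0 := by
      rw [wa_ord_pow]
      have := wa_mul_neg (m := m) hz2
      omega
    have hge0 : D2_ge w0 (w0.ord (z ^ m) + 1) y := Or.inr (by omega)
    have hne : y + z ^ m ≠ 0 := D2.add_ne_zero_of_ge w0 hzm0 hge0
    refine ⟨y + z ^ m, ?_, fun w hw => ?_⟩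
    · have h1 := min_le_ord_add v hne
      have h2 : 0 < v.ord (z ^ m) := by
        rw [wa_ord_pow]
        have := wa_mul_pos (m := m) hz1
        omega
      have h3 : 0 < min (v.ord y) (v.ord (z ^ m)) := lt_min hy1 h2
      omega
    · rcases Finset.mem_insert.1 hw with rfl | hw
      · rw [D2.ord_add_eq w hzm0 hge0]
        exact hw0z
      · have hyw := hy2 w hw
        have hMw := hM w hw
        rcases lt_or_ge (w.ord z) 0 with hz | hz
        · have h1 : w.ord (z ^ m) ≤ -(m : ℤ) := by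
            rw [wa_ord_pow]
            exact wa_mul_neg hz
          rw [D2.ord_add_eq w hzm0 (Or.inr (by omega))]
          omega
        · have h1 : 0 ≤ w.ord (z ^ m) := by
            rw [wa_ord_pow]
            positivity
          rw [add_comm, D2.ord_add_eq w hy0 (Or.inr (by omega))]
          exact hyw

theorem wa_step3 (v : Place K F) (t : Finset (Place K F)) (hv : v ∉ t) (N : ℤ) :
    ∃ e : F, D2_ge v N (e - 1) ∧ ∀ w ∈ t, D2_ge w N e := by
  obtain ⟨u, hu1, hu2⟩ := wa_step2 v t hv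
  obtain ⟨m, hm1, hmN⟩ : ∃ m : ℕ, 1 ≤ m ∧ N ≤ m :=
    ⟨N.toNat + 1, by omega, by have := Int.self_le_toNat N; push_cast; omega⟩
  have hm1' : (1 : ℤ) ≤ m := by exact_mod_cast hm1
  have hu0 : u ≠ 0 := wa_ne_zero_of_ord_ne hu1.ne'
  have hum0 : u ^ m ≠ 0 := pow_ne_zero _ hu0
  have hvum : (m : ℤ) ≤ v.ord (u ^ m) := by
    rw [wa_ord_pow]
    exact wa_mul_pos hu1
  have hge : D2_ge v (v.ord (1 : F) + 1) (u ^ m) := Or.inr (by rw [v.ord_one]; omega)
  have hne : u ^ m + 1 ≠ 0 := D2.add_ne_zero_of_ge v one_ne_zero hge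
  have hord : v.ord (u ^ m + 1) = 0 := by
    rw [D2.ord_add_eq v one_ne_zero hge, v.ord_one]
  refine ⟨(u ^ m + 1)⁻¹, Or.inr ?_, fun w hw => Or.inr ?_⟩
  · have h1 : (u ^ m + 1)⁻¹ - 1 = (-(u ^ m)) * (u ^ m + 1)⁻¹ := by
      field_simp
      ring
    rw [h1, v.ord_mul (neg_ne_zero.2 hum0) (inv_ne_zero hne), D2.ord_neg, v.ord_inv, hord]
    omega
  · have h1 : w.ord (u ^ m) ≤ -(m : ℤ) := by
      rw [wa_ord_pow]
      exact wa_mul_neg (hu2 w hw)
    have h2 : w.ord (u ^ m + 1) = w.ord (u ^ m) := by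
      rw [add_comm]
      exact D2.ord_add_eq w hum0 (Or.inr (by rw [w.ord_one]; omega))
    rw [w.ord_inv, h2]
    omega

theorem wa_step4 (s : Finset (Place K F)) (y : Place K F → F) (N : ℤ) :
    ∃ z : F, ∀ v ∈ s, D2_ge v N (z - y v) := by
  classical
  have hex : ∀ v : Place K F, ∃ e : F, D2_ge v N ((e - 1) * y v) ∧
      ∀ w ∈ s.erase v, D2_ge w N (e * y v) := by
    intro v
    obtain ⟨M, hM⟩ := wa_bound s (fun w => - w.ord (y v))
    obtain ⟨M', hM'⟩ : ∃ M' : ℤ, M ≤ M' ∧ - v.ord (y v) ≤ M' :=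
      ⟨max M (- v.ord (y v)), le_max_left _ _, le_max_right _ _⟩
    obtain ⟨e, he1, he2⟩ := wa_step3 v (s.erase v) (Finset.notMem_erase v s) (N + M')
    refine ⟨e, ?_, fun w hw => ?_⟩
    · have := D2.ge_mul v he1 (Or.inr (by omega) : D2_ge v (-M') (y v))
      simpa using this
    · have hw' := hM w (Finset.mem_of_mem_erase hw)
      have := D2.ge_mul w (he2 w hw) (Or.inr (by omega) : D2_ge w (-M') (y v))
      simpa using this
  choose e he1 he2 using hex
  refine ⟨∑ v ∈ s, e v * y v, fun v hv => ?_⟩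
  have h1 : ∑ w ∈ s, e w * y w - y v = (e v - 1) * y v + ∑ w ∈ s.erase v, e w * y w := by
    rw [← Finset.add_sum_erase s _ hv]
    ring
  rw [h1]
  refine D2.ge_add v (he1 v) ?_
  have hsum : ∀ T : Finset (Place K F), (∀ w ∈ T, D2_ge v N (e w * y w)) →
      D2_ge v N (∑ w ∈ T, e w * y w) := by
    intro T
    induction T using Finset.induction_on with
    | empty => intro _; exact Or.inl (by simp)
    | insert a T ha ih =>
      intro hT
      rw [Finset.sum_insert ha]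
      exact D2.ge_add v (hT a (Finset.mem_insert_self _ _))
        (ih fun w hw => hT w (Finset.mem_insert_of_mem hw))
  refine hsum _ fun w hw => ?_
  have hwv : w ≠ v := Finset.ne_of_mem_erase hw
  exact he2 w v (Finset.mem_erase.2 ⟨hwv.symm, hv⟩)

/-- Weak approximation (Stichtenoth 1.3.1). -/
theorem weak_approximation (s : Finset (Place K F)) (x : Place K F → F) (r : Place K F → ℤ) :
    ∃ z : F, ∀ v ∈ s, z - x v ≠ 0 ∧ v.ord (z - x v) = r v := by
  have hex : ∀ v : Place K F, ∃ a : F, a ≠ 0 ∧ v.ord a = r v := by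
    intro v
    obtain ⟨π, hπ⟩ := exists_ord_eq_one v
    have hπ0 : π ≠ 0 := wa_ne_zero_of_ord_ne (v := v) (by omega)
    exact ⟨π ^ (r v), zpow_ne_zero _ hπ0, by rw [v.ord_zpow, hπ, mul_one]⟩
  choose a ha0 ha using hex
  obtain ⟨M, hM⟩ := wa_bound s r
  obtain ⟨z, hz⟩ := wa_step4 s (fun v => x v + a v) (M + 1)
  refine ⟨z, fun v hv => ?_⟩
  have h1 : z - x v = (z - (x v + a v)) + a v := by ring
  have h2 : D2_ge v (v.ord (a v) + 1) (z - (x v + a v)) :=
    D2.ge_mono v (by rw [ha]; have := hM v hv; omega) (hz v hv)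
  rw [h1]
  exact ⟨D2.add_ne_zero_of_ge v (ha0 v) h2, by rw [D2.ord_add_eq v (ha0 v) h2, ha]⟩

end Fermat.Agent.FFLib
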