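import Fermat.Agent.Lib.FF.Defs
import Fermat.Agent.Lib.FF.LinIndep
import Fermat.Agent.Lib.FF.Approx

/-!
# Zeros and poles of a function: finiteness and the degree bound (Stichtenoth 1.3.3, 1.3.4)
-/

set_option autoImplicit false

open AlgebraicCurve IntermediateField Polynomial Fermat.Agent.S24Lib

namespace Fermat.Agent.FFLib

variable {K F : Type*} [Field K] [Field F] [Algebra K F]

theorem ze_ge_sum {ι : Type*} (v : Place K F) (N : ℤ) (f : ι → F) (T : Finset ι)
    (hT : ∀ i ∈ T, D2_ge v N (f i)) : D2_ge v N (∑ i ∈ T, f i) := by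
  classical
  induction T using Finset.induction_on with
  | empty => exact Or.inl (by simp)
  | insert a T ha ih =>
    rw [Finset.sum_insert ha]
    exact D2.ge_add v (hT a (Finset.mem_insert_self _ _))
      (ih fun w hw => hT w (Finset.mem_insert_of_mem hw))

theorem ze_ge_aeval (v : Place K F) {x : F} (hx : 0 ≤ v.ord x) (φ : K[X]) :
    D2_ge v 0 (aeval x φ) := by
  induction φ using Polynomial.induction_on' with
  | add p q hp hq =>
    rw [map_add]
    exact D2.ge_add v hp hq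
  | monomial n a =>
    rw [aeval_monomial]
    have h1 : D2_ge v 0 (algebraMap K F a) := Or.inr (by rw [ord_algebraMap])
    have h2 : D2_ge v 0 (x ^ n) := Or.inr (by rw [wa_ord_pow]; positivity)
    simpa using D2.ge_mul v h1 h2

theorem ze_aeval_eq (x : F) (φ : K[X]) :
    aeval x φ = aeval x φ.divX * x + algebraMap K F (φ.coeff 0) := by
  conv_lhs => rw [← Polynomial.divX_mul_X_add φ]
  simp

theorem ze_ge_aeval_of_coeff (v : Place K F) {x : F} (hx : 0 ≤ v.ord x) {φ : K[X]}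
    (hφ : φ.coeff 0 = 0) : D2_ge v (v.ord x) (aeval x φ) := by
  rw [ze_aeval_eq, hφ, map_zero, add_zero]
  simpa using D2.ge_mul v (ze_ge_aeval v hx φ.divX) (Or.inr le_rfl : D2_ge v (v.ord x) x)

theorem ze_ord_aeval (v : Place K F) {x : F} (hx : 0 < v.ord x) {φ : K[X]}
    (hφ : φ.coeff 0 ≠ 0) : aeval x φ ≠ 0 ∧ v.ord (aeval x φ) = 0 := by
  have hb : algebraMap K F (φ.coeff 0) ≠ 0 := by
    rwa [Ne, map_eq_zero]
  have hge : D2_ge v (v.ord (algebraMap K F (φ.coeff 0)) + 1) (aeval x φ.divX * x) := by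
    rw [ord_algebraMap]
    have := D2.ge_mul v (ze_ge_aeval v hx.le φ.divX) (Or.inr le_rfl : D2_ge v (v.ord x) x)
    exact D2.ge_mono v (by omega) this
  rw [ze_aeval_eq]
  exact ⟨D2.add_ne_zero_of_ge v hb hge, by rw [D2.ord_add_eq v hb hge, ord_algebraMap]⟩

theorem sum_ord_le_finrank [IsAlgClosed K] (h : IsFF K F) {x : F} (hx : Transcendental K x)
    (s : Finset (Place K F)) (hs : ∀ v ∈ s, 0 < v.ord x) :
    ∑ v ∈ s, v.ord x ≤ (Module.finrank K⟮x⟯ F : ℤ) := by
  classical
  have hfin : FiniteDimensional K⟮x⟯ F := h.finiteDimensional hx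
  have hx0 : x ≠ 0 := by
    rintro rfl
    exact hx (isAlgebraic_zero)
  set I : Finset (Σ _ : Place K F, ℕ) := s.sigma (fun v => Finset.range (v.ord x).toNat) with hI
  have hcard : (Fintype.card I : ℤ) = ∑ v ∈ s, v.ord x := by
    rw [Fintype.card_coe, hI, Finset.card_sigma]
    push_cast
    refine Finset.sum_congr rfl fun v hv => ?_
    rw [Finset.card_range]
    exact Int.toNat_of_nonneg (hs v hv).le
  have hmem : ∀ i : I, i.1.1 ∈ s ∧ (i.1.2 : ℤ) < i.1.1.ord x := by
    intro i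
    have := Finset.mem_sigma.1 i.2
    rw [Finset.mem_range] at this
    exact ⟨this.1, by omega⟩
  have hex : ∀ i : I, ∃ z : F, z ≠ 0 ∧ i.1.1.ord z = i.1.2 ∧
      ∀ k ∈ s, k ≠ i.1.1 → k.ord z = k.ord x := by
    intro i
    obtain ⟨z, hz⟩ := weak_approximation s (fun _ => 0)
      (fun k => if k = i.1.1 then (i.1.2 : ℤ) else k.ord x)
    simp only [sub_zero] at hz
    refine ⟨z, (hz _ (hmem i).1).1, ?_, fun k hk hki => ?_⟩
    · rw [(hz _ (hmem i).1).2, if_pos rfl]
    · rw [(hz k hk).2, if_neg hki]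
  choose w hw0 hw1 hw2 using hex
  rw [← hcard]
  have := card_le_finrank_of_indep (K := K) x hx0 w ?_
  · exact_mod_cast this
  intro φ hsum
  by_contra hcon
  push Not at hcon
  obtain ⟨i1, hi1⟩ := hcon
  set k := i1.1.1 with hk
  have hks : k ∈ s := (hmem i1).1
  have hex : ∃ c : ℕ, ∃ hc : (⟨k, c⟩ : Σ _ : Place K F, ℕ) ∈ I, (φ ⟨⟨k, c⟩, hc⟩).coeff 0 ≠ 0 :=
    ⟨i1.1.2, i1.2, hi1⟩
  obtain ⟨hc, hcφ⟩ := Nat.find_spec hex
  have hmin : ∀ a : ℕ, a < Nat.find hex → ∀ ha : (⟨k, a⟩ : Σ _ : Place K F, ℕ) ∈ I,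
      (φ ⟨⟨k, a⟩, ha⟩).coeff 0 = 0 := by
    intro a ha ha'
    by_contra hne
    exact Nat.find_min hex ha ⟨ha', hne⟩
  set c := Nat.find hex with hcdef
  set i0 : I := ⟨⟨k, c⟩, hc⟩ with hi0
  have hce : (c : ℤ) < k.ord x := (hmem i0).2
  have hkx : 0 < k.ord x := hs k hks
  obtain ⟨hne0, hord0⟩ := ze_ord_aeval k hkx hcφ
  have hb : aeval x (φ i0) * w i0 ≠ 0 := mul_ne_zero hne0 (hw0 i0)
  have hbord : k.ord (aeval x (φ i0) * w i0) = c := by
    rw [k.ord_mul hne0 (hw0 i0), hord0, zero_add]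
    exact hw1 i0
  have hrest : D2_ge k (k.ord (aeval x (φ i0) * w i0) + 1)
      (∑ i ∈ Finset.univ.erase i0, aeval x (φ i) * w i) := by
    rw [hbord]
    refine ze_ge_sum k _ _ _ fun i hi => ?_
    have hii0 : i ≠ i0 := Finset.ne_of_mem_erase hi
    by_cases hik : i.1.1 = k
    · obtain ⟨⟨v, a⟩, hia⟩ := i
      simp only at hik
      subst hik
      have hac : a ≠ c := by
        rintro rfl
        exact hii0 rfl
      have hwa : k.ord (w ⟨⟨k, a⟩, hia⟩) = a := hw1 ⟨⟨k, a⟩, hia⟩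
      rcases lt_or_gt_of_ne hac with hlt | hgt
      · have h1 := ze_ge_aeval_of_coeff k hkx.le (hmin a hlt hia)
        have h2 := D2.ge_mul k h1 (Or.inr hwa.ge : D2_ge k a (w ⟨⟨k, a⟩, hia⟩))
        exact D2.ge_mono k (by omega) h2
      · have h1 := ze_ge_aeval k hkx.le (φ ⟨⟨k, a⟩, hia⟩)
        have h2 := D2.ge_mul k h1 (Or.inr hwa.ge : D2_ge k a (w ⟨⟨k, a⟩, hia⟩))
        exact D2.ge_mono k (by omega) h2
    · have hwk : k.ord (w i) = k.ord x := hw2 i k hks (fun h => hik h.symm)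
      have h1 := ze_ge_aeval k hkx.le (φ i)
      have h2 := D2.ge_mul k h1 (Or.inr hwk.ge : D2_ge k (k.ord x) (w i))
      exact D2.ge_mono k (by omega) h2
  have hfinal := D2.add_ne_zero_of_ge k hb hrest
  apply hfinal
  rw [add_comm, Finset.add_sum_erase Finset.univ (fun i => aeval x (φ i) * w i)
    (Finset.mem_univ i0)]
  exact hsum

theorem ze_finite_zeros [IsAlgClosed K] (h : IsFF K F) {x : F} (hx : Transcendental K x) :
    {v : Place K F | 0 < v.ord x}.Finite := by
  by_contra hinf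
  obtain ⟨t, ht, hcard⟩ := Set.Infinite.exists_subset_card_eq hinf (Module.finrank K⟮x⟯ F + 1)
  have h1 := sum_ord_le_finrank h hx t (fun v hv => ht hv)
  have h2 : (t.card : ℤ) ≤ ∑ v ∈ t, v.ord x := by
    have : ∑ _v ∈ t, (1 : ℤ) ≤ ∑ v ∈ t, v.ord x :=
      Finset.sum_le_sum fun v hv => (ht hv : 0 < v.ord x)
    simpa using this
  rw [hcard] at h2
  push_cast at h2
  omega

theorem finite_ord_ne_zero [IsAlgClosed K] (h : IsFF K F) (x : F) :
    {v : Place K F | v.ord x ≠ 0}.Finite := by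
  by_cases hx : x ∈ (algebraMap K F).range
  · obtain ⟨a, rfl⟩ := hx
    have : {v : Place K F | v.ord (algebraMap K F a) ≠ 0} = ∅ := by
      ext v
      simp [ord_algebraMap]
    rw [this]
    exact Set.finite_empty
  · have hx1 : Transcendental K x := transcendental_of_not_mem_range hx
    have hx2 : Transcendental K x⁻¹ := by
      refine transcendental_of_not_mem_range fun ⟨a, ha⟩ => hx ⟨a⁻¹, ?_⟩
      rw [map_inv₀, ha, inv_inv]
    refine ((ze_finite_zeros h hx1).union (ze_finite_zeros h hx2)).subset ?_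
    intro v hv
    have hv' : v.ord x ≠ 0 := hv
    rcases lt_or_gt_of_ne hv' with h1 | h1
    · right
      change 0 < v.ord x⁻¹
      rw [v.ord_inv]
      omega
    · left
      exact h1

theorem divOf_apply [IsAlgClosed K] (h : IsFF K F) (x : F) (v : Place K F) :
    divOf K x v = v.ord x := by
  rw [divOf, dif_pos (finite_ord_ne_zero h x)]
  rfl

theorem poleDiv_apply [IsAlgClosed K] (h : IsFF K F) (x : F) (v : Place K F) :
    poleDiv K x v = max (-v.ord x) 0 := by
  rw [poleDiv, Finsupp.mapRange_apply, divOf_apply h]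

theorem zeroDiv_apply [IsAlgClosed K] (h : IsFF K F) (x : F) (v : Place K F) :
    zeroDiv K x v = max (v.ord x) 0 := by
  rw [zeroDiv, Finsupp.mapRange_apply, divOf_apply h]

theorem degree_eq_sum [IsAlgClosed K] (h : IsFF K F) (D : Divisor K F) (T : Finset (Place K F))
    (hT : D.support ⊆ T) : Divisor.degree D = ∑ v ∈ T, D v := by
  have h1 : Divisor.degree D = D.sum fun v n => n * (v.deg : ℤ) := by
    simp [Divisor.degree, Finsupp.liftAddHom_apply]
  rw [h1, Finsupp.sum_of_support_subset D hT _ (fun v _ => by simp)]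
  refine Finset.sum_congr rfl fun v _ => ?_
  rw [deg_eq_one h v]
  simp

theorem degree_zeroDiv_le [IsAlgClosed K] (h : IsFF K F) {x : F} (hx : Transcendental K x) :
    Divisor.degree (zeroDiv K x) ≤ (Module.finrank K⟮x⟯ F : ℤ) := by
  rw [degree_eq_sum h _ _ (Finset.Subset.refl _)]
  have hpos : ∀ v ∈ (zeroDiv K x).support, 0 < v.ord x := by
    intro v hv
    rw [Finsupp.mem_support_iff, zeroDiv_apply h] at hv
    by_contra hc
    exact hv (max_eq_right (by omega))
  refine le_trans (le_of_eq ?_) (sum_ord_le_finrank h hx _ hpos)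
  refine Finset.sum_congr rfl fun v hv => ?_
  rw [zeroDiv_apply h]
  exact max_eq_left (hpos v hv).le

end Fermat.Agent.FFLib
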