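import Fermat.Agent.Lib.FF.Defs
import Fermat.Agent.Lib.FF.ValRing
import Fermat.Agent.Lib.FF.Zeros

set_option autoImplicit false

open AlgebraicCurve IntermediateField Polynomial Fermat.Agent.S24Lib

namespace Fermat.Agent.FFLib

variable {K F : Type*} [Field K] [Field F] [Algebra K F]

theorem L_mono {A B : Divisor K F} (hAB : A ≤ B) : riemannRochSpace A ≤ riemannRochSpace B := by
  intro f hf
  rw [mem_L_iff] at hf ⊢
  intro v
  exact D2.ge_mono v (neg_le_neg (hAB v)) (hf v)

theorem mem_L_zero_iff [IsAlgClosed K] (h : IsFF K F) (f : F) :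
    f ∈ riemannRochSpace (0 : Divisor K F) ↔ f ∈ (algebraMap K F).range := by
  constructor
  · intro hf
    by_contra hcon
    have htr : Transcendental K f := transcendental_of_not_mem_range hcon
    have htr' : Transcendental K f⁻¹ := by
      intro halg
      apply htr
      have := halg.inv
      rwa [inv_inv] at this
    obtain ⟨v, hv⟩ := exists_place_ord_pos h htr'
    rw [v.ord_inv] at hv
    rw [mem_L_iff] at hf
    rcases hf v with rfl | h1
    · simp at hv
    · simp only [Finsupp.coe_zero, Pi.zero_apply, neg_zero] at h1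
      omega
  · rintro ⟨a, rfl⟩
    rw [mem_L_iff]
    intro v
    right
    rw [ord_algebraMap]
    simp

theorem ell_zero [IsAlgClosed K] (h : IsFF K F) : ell (0 : Divisor K F) = 1 := by
  have h1 : (1 : F) ∈ riemannRochSpace (0 : Divisor K F) :=
    (mem_L_zero_iff h 1).mpr ⟨1, map_one _⟩
  rw [ell, finrank_eq_one_iff_of_nonzero' (⟨1, h1⟩ : riemannRochSpace (0 : Divisor K F))
    (by simp [Subtype.ext_iff])]
  rintro ⟨w, hw⟩
  obtain ⟨c, rfl⟩ := (mem_L_zero_iff h w).mp hw
  refine ⟨c, Subtype.ext ?_⟩
  simp [Algebra.smul_def]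

theorem ls_ord_eq {A : Divisor K F} {v : Place K F} {g : F}
    (hg : g ∈ riemannRochSpace (A + Finsupp.single v 1)) (hg' : g ∉ riemannRochSpace A) :
    g ≠ 0 ∧ v.ord g = -A v - 1 := by
  classical
  rw [mem_L_iff] at hg hg'
  push Not at hg'
  obtain ⟨w, hw⟩ := hg'
  have hg0 : g ≠ 0 := fun h0 => hw (Or.inl h0)
  have hw' : w.ord g < -A w := by
    by_contra hcon
    exact hw (Or.inr (not_lt.mp hcon))
  have h1 := (hg w).resolve_left hg0
  rw [Finsupp.add_apply] at h1
  by_cases hwv : v = w
  · subst hwv
    rw [Finsupp.single_eq_same] at h1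
    exact ⟨hg0, by omega⟩
  · rw [Finsupp.single_eq_of_ne (Ne.symm hwv)] at h1
    omega

theorem exists_smul_sub_mem [IsAlgClosed K] (h : IsFF K F) (A : Divisor K F) (v : Place K F)
    {f g : F} (hf : f ∈ riemannRochSpace (A + Finsupp.single v 1))
    (hg : g ∈ riemannRochSpace (A + Finsupp.single v 1)) (hg' : g ∉ riemannRochSpace A) :
    ∃ c : K, f - c • g ∈ riemannRochSpace A := by
  classical
  obtain ⟨hg0, hgv⟩ := ls_ord_eq hg hg'
  by_cases hf0 : f = 0
  · exact ⟨0, by simp [hf0]⟩
  have hfv : -A v - 1 ≤ v.ord f := by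
    have := ((mem_L_iff.mp hf) v).resolve_left hf0
    rw [Finsupp.add_apply, Finsupp.single_eq_same] at this
    omega
  have hq : 0 ≤ v.ord (f / g) := by
    rw [div_eq_mul_inv, v.ord_mul hf0 (inv_ne_zero hg0), v.ord_inv]
    omega
  obtain ⟨c, hc⟩ := exists_residue h v hq
  refine ⟨c, ?_⟩
  have hmem : f - c • g ∈ riemannRochSpace (A + Finsupp.single v 1) :=
    Submodule.sub_mem _ hf (Submodule.smul_mem _ c hg)
  rw [mem_L_iff] at hmem ⊢
  intro w
  by_cases hwv : v = w
  · subst hwv
    have hfac : f - c • g = g * (f / g - algebraMap K F c) := by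
      rw [Algebra.smul_def]
      field_simp
    rcases hc with hc | hc
    · left
      rw [hfac, hc, sub_self, mul_zero]
    · by_cases h0 : f / g - algebraMap K F c = 0
      · left
        rw [hfac, h0, mul_zero]
      · right
        rw [hfac, v.ord_mul hg0 h0]
        omega
  · have := hmem w
    rwa [Finsupp.add_apply, Finsupp.single_eq_of_ne (Ne.symm hwv), add_zero] at this

theorem ls_step [IsAlgClosed K] (h : IsFF K F) (A : Divisor K F) (v : Place K F)
    (hA : FiniteDimensional K (riemannRochSpace A)) :
    FiniteDimensional K (riemannRochSpace (A + Finsupp.single v 1)) ∧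
      ell (A + Finsupp.single v 1) ≤ ell A + 1 := by
  have hle : riemannRochSpace A ≤ riemannRochSpace (A + Finsupp.single v 1) := by
    apply L_mono
    intro w
    rw [Finsupp.add_apply]
    have : 0 ≤ (Finsupp.single v (1 : ℤ)) w := by
      classical
      rw [Finsupp.single_apply]
      split_ifs <;> norm_num
    omega
  by_cases heq : riemannRochSpace (A + Finsupp.single v 1) ≤ riemannRochSpace A
  · have := le_antisymm heq hle
    unfold ell
    rw [this]
    exact ⟨hA, Nat.le_succ _⟩
  · obtain ⟨g, hg, hg'⟩ := SetLike.not_le_iff_exists.mp heq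
    have hsup : riemannRochSpace (A + Finsupp.single v 1) ≤ riemannRochSpace A ⊔ K ∙ g := by
      intro f hf
      obtain ⟨c, hc⟩ := exists_smul_sub_mem h A v hf hg hg'
      have : f = (f - c • g) + c • g := by ring
      rw [this]
      exact Submodule.add_mem_sup hc (Submodule.smul_mem _ c (Submodule.mem_span_singleton_self g))
    have hfd : FiniteDimensional K (riemannRochSpace A ⊔ K ∙ g : Submodule K F) :=
      Submodule.finiteDimensional_sup _ _
    refine ⟨Submodule.finiteDimensional_of_le hsup, ?_⟩
    calc ell (A + Finsupp.single v 1)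
        ≤ Module.finrank K (riemannRochSpace A ⊔ K ∙ g : Submodule K F) :=
          Submodule.finrank_mono hsup
      _ ≤ Module.finrank K (riemannRochSpace A) + Module.finrank K (K ∙ g) :=
          Submodule.finrank_add_le_finrank_add_finrank _ _
      _ ≤ ell A + 1 := by
          have : Module.finrank K (K ∙ g) ≤ 1 := by
            have := finrank_span_le_card (R := K) ({g} : Set F)
            simpa using this
          unfold ell
          omega

theorem ls_steps [IsAlgClosed K] (h : IsFF K F) (E : Place K F →₀ ℕ) :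
    ∀ A : Divisor K F, FiniteDimensional K (riemannRochSpace A) →
    FiniteDimensional K (riemannRochSpace (A + E.mapRange (Nat.cast : ℕ → ℤ) Nat.cast_zero)) ∧
      (ell (A + E.mapRange (Nat.cast : ℕ → ℤ) Nat.cast_zero) : ℤ) ≤
        ell A + Divisor.degree (E.mapRange (Nat.cast : ℕ → ℤ) Nat.cast_zero) := by
  induction E using Finsupp.induction_linear with
  | zero =>
    intro A hA
    rw [Finsupp.mapRange_zero, add_zero, map_zero, add_zero]
    exact ⟨hA, le_rfl⟩
  | add E₁ E₂ h₁ h₂ =>
    intro A hA
    obtain ⟨hf1, hl1⟩ := h₁ A hA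
    obtain ⟨hf2, hl2⟩ := h₂ _ hf1
    rw [Finsupp.mapRange_add (by intro a b; push_cast; ring), ← add_assoc, map_add]
    exact ⟨hf2, by omega⟩
  | single v n =>
    induction n with
    | zero =>
      intro A hA
      rw [Finsupp.single_zero, Finsupp.mapRange_zero, add_zero, map_zero, add_zero]
      exact ⟨hA, le_rfl⟩
    | succ n ih =>
      intro A hA
      obtain ⟨hf1, hl1⟩ := ih A hA
      obtain ⟨hf2, hl2⟩ := ls_step h _ v hf1
      have he : (Finsupp.single v (n + 1)).mapRange (Nat.cast : ℕ → ℤ) Nat.cast_zero =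
          (Finsupp.single v n).mapRange (Nat.cast : ℕ → ℤ) Nat.cast_zero +
            Finsupp.single v (1 : ℤ) := by
        rw [Finsupp.mapRange_single, Finsupp.mapRange_single, ← Finsupp.single_add]
        push_cast
        rfl
      rw [he, ← add_assoc, map_add, Divisor.degree_single, deg_eq_one h v]
      refine ⟨hf2, ?_⟩
      push_cast
      omega

theorem ls_exists_nat {A B : Divisor K F} (hAB : A ≤ B) :
    ∃ E : Place K F →₀ ℕ, B = A + E.mapRange (Nat.cast : ℕ → ℤ) Nat.cast_zero := by
  refine ⟨(B - A).mapRange Int.toNat rfl, ?_⟩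
  ext v
  simp only [Finsupp.add_apply, Finsupp.mapRange_apply, Finsupp.sub_apply]
  have := hAB v
  omega

theorem ls_finiteDimensional_zero [IsAlgClosed K] (h : IsFF K F) :
    FiniteDimensional K (riemannRochSpace (0 : Divisor K F)) :=
  Module.finite_of_finrank_pos (by
    have := ell_zero h
    unfold ell at this
    omega)

theorem finiteDimensional_L [IsAlgClosed K] (h : IsFF K F) (A : Divisor K F) :
    FiniteDimensional K (riemannRochSpace A) := by
  set B : Divisor K F := A.mapRange (fun n => max n 0) (by simp) with hB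
  have h0B : (0 : Divisor K F) ≤ B := by
    intro v
    simp [hB]
  have hAB : A ≤ B := by
    intro v
    simp [hB]
  obtain ⟨E, hE⟩ := ls_exists_nat h0B
  have h1 := (ls_steps h E 0 (ls_finiteDimensional_zero h)).1
  rw [← hE] at h1
  exact Submodule.finiteDimensional_of_le (L_mono hAB)

theorem ell_mono [IsAlgClosed K] (h : IsFF K F) {A B : Divisor K F} (hAB : A ≤ B) :
    ell A ≤ ell B := by
  have := finiteDimensional_L h B
  exact Submodule.finrank_mono (L_mono hAB)

theorem ell_le_add [IsAlgClosed K] (h : IsFF K F) {A B : Divisor K F} (hAB : A ≤ B) :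
    (ell B : ℤ) ≤ ell A + (Divisor.degree B - Divisor.degree A) := by
  obtain ⟨E, hE⟩ := ls_exists_nat hAB
  have h1 := (ls_steps h E A (finiteDimensional_L h A)).2
  rw [hE, map_add]
  omega

theorem ell_add_divOf [IsAlgClosed K] (h : IsFF K F) (A : Divisor K F) {z : F} (hz : z ≠ 0) :
    ell (A + divOf K z) = ell A := by
  let e : F ≃ₗ[K] F := LinearEquiv.ofLinearMap (LinearMap.mulLeft K z) (LinearMap.mulLeft K z⁻¹)
    (by ext x; simp [hz]) (by ext x; simp [hz])
  have hmap : (riemannRochSpace (A + divOf K z)).map (e : F →ₗ[K] F) = riemannRochSpace A := by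
    ext f
    rw [Submodule.mem_map]
    constructor
    · rintro ⟨g, hg, rfl⟩
      rw [mem_L_iff] at hg ⊢
      intro v
      show D2_ge v (-A v) (z * g)
      rcases hg v with rfl | h1
      · left; simp
      · by_cases hg0 : g = 0
        · left; simp [hg0]
        · right
          rw [v.ord_mul hz hg0]
          rw [Finsupp.add_apply, divOf_apply h] at h1
          omega
    · intro hf
      refine ⟨z⁻¹ * f, ?_, ?_⟩
      · rw [mem_L_iff] at hf ⊢
        intro v
        rcases hf v with rfl | h1
        · left; simp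
        · by_cases hf0 : f = 0
          · left; simp [hf0]
          · right
            rw [v.ord_mul (inv_ne_zero hz) hf0, v.ord_inv, Finsupp.add_apply, divOf_apply h]
            omega
      · show z * (z⁻¹ * f) = f
        field_simp
  unfold ell
  rw [← hmap]
  exact (LinearEquiv.finrank_map_eq e _).symm

end Fermat.Agent.FFLib
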