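import Fermat.Agent.Lib.FF.Defs
import Fermat.Agent.Lib.FF.Zeros
import Fermat.Agent.Lib.FF.LSpace

/-!
# (DG) the degree of the pole divisor, principal divisors have degree zero (Stichtenoth 1.4.11)
-/

set_option autoImplicit false

open AlgebraicCurve IntermediateField Polynomial Fermat.Agent.S24Lib

namespace Fermat.Agent.FFLib

variable {K F : Type*} [Field K] [Field F] [Algebra K F]

theorem dg_linInd_pow {x : F} (hx : Transcendental K x) :
    LinearIndependent K (fun i : ℕ => x ^ i) := by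
  have h1 := (Polynomial.basisMonomials K).linearIndependent
  have h2 := h1.map' (aeval x : K[X] →ₐ[K] F).toLinearMap
    (LinearMap.ker_eq_bot.mpr (transcendental_iff_injective.mp hx))
  have h3 : (fun i : ℕ => x ^ i) =
      (aeval x : K[X] →ₐ[K] F).toLinearMap ∘ (Polynomial.basisMonomials K) := by
    ext i
    simp
  rw [h3]
  exact h2

theorem dg_linInd {x : F} (hx : Transcendental K x) {ι : Type*} (u : ι → F)
    (hu : LinearIndependent K⟮x⟯ u) :
    LinearIndependent K (fun p : ℕ × ι => x ^ p.1 * u p.2) := by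
  have hb : LinearIndependent K (fun i : ℕ => (AdjoinSimple.gen K x) ^ i) := by
    apply LinearIndependent.of_comp (K⟮x⟯.val.toLinearMap)
    have h3 : (K⟮x⟯.val.toLinearMap ∘ fun i : ℕ => (AdjoinSimple.gen K x) ^ i) =
        fun i : ℕ => x ^ i := by
      ext i
      simp
    rw [h3]
    exact dg_linInd_pow hx
  have := linearIndependent_smul hb hu
  have h4 : (fun p : ℕ × ι => x ^ p.1 * u p.2) =
      fun p : ℕ × ι => (AdjoinSimple.gen K x) ^ p.1 • u p.2 := by
    ext p
    rw [Algebra.smul_def]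
    simp
  rw [h4]
  exact this

theorem dg_transcendental_inv {y : F} (hy : Transcendental K y) : Transcendental K y⁻¹ := by
  intro hal
  exact hy (by simpa using hal.inv)

theorem dg_adjoin_inv (y : F) : K⟮y⁻¹⟯ = K⟮y⟯ := by
  apply le_antisymm
  · rw [adjoin_simple_le_iff]
    exact inv_mem (mem_adjoin_simple_self K y)
  · rw [adjoin_simple_le_iff]
    have := inv_mem (mem_adjoin_simple_self K y⁻¹)
    simpa using this

theorem dg_finrank_inv (y : F) : Module.finrank K⟮y⁻¹⟯ F = Module.finrank K⟮y⟯ F := by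
  rw [dg_adjoin_inv]

theorem dg_degree_nonneg [IsAlgClosed K] (h : IsFF K F) {A : Divisor K F} (hA : 0 ≤ A) :
    0 ≤ Divisor.degree A := by
  rw [degree_eq_sum h A A.support subset_rfl]
  exact Finset.sum_nonneg fun v _ => hA v

theorem dg_poleDiv_nonneg [IsAlgClosed K] (h : IsFF K F) (x : F) : 0 ≤ poleDiv K x := by
  intro v
  rw [poleDiv_apply h]
  exact le_max_right _ _

theorem dg_poleDiv_eq [IsAlgClosed K] (h : IsFF K F) (x : F) : poleDiv K x = zeroDiv K x⁻¹ := by
  ext v
  rw [poleDiv_apply h, zeroDiv_apply h, v.ord_inv]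

theorem dg_zeroDiv_eq [IsAlgClosed K] (h : IsFF K F) (x : F) : zeroDiv K x = poleDiv K x⁻¹ := by
  rw [dg_poleDiv_eq h, inv_inv]

theorem exists_le_ell_smul_poleDiv [IsAlgClosed K] (h : IsFF K F) {x : F}
    (hx : Transcendental K x) :
    ∃ C : Divisor K F, 0 ≤ C ∧ ∀ l : ℕ,
      (l + 1) * Module.finrank K⟮x⟯ F ≤ ell (l • poleDiv K x + C) := by
  classical
  have := h.finiteDimensional hx
  set n := Module.finrank K⟮x⟯ F with hn
  let u := Module.finBasis K⟮x⟯ F
  have hx0 : x ≠ 0 := by
    rintro rfl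
    exact hx isAlgebraic_zero
  refine ⟨∑ j, poleDiv K (u j), Finset.sum_nonneg fun j _ => dg_poleDiv_nonneg h _, fun l => ?_⟩
  have := finiteDimensional_L h (l • poleDiv K x + ∑ j, poleDiv K (u j))
  have hmem : ∀ p : Fin (l + 1) × Fin n, x ^ (p.1 : ℕ) * u p.2 ∈
      riemannRochSpace (l • poleDiv K x + ∑ j, poleDiv K (u j)) := by
    rintro ⟨i, j⟩
    rw [mem_L_iff]
    intro v
    right
    have hu0 : u j ≠ 0 := u.ne_zero j
    rw [v.ord_mul (pow_ne_zero _ hx0) hu0, ← zpow_natCast, v.ord_zpow]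
    simp only [Finsupp.add_apply, Finsupp.smul_apply, Finsupp.finsetSum_apply, poleDiv_apply h]
    have h1 : max (-v.ord (u j)) 0 ≤ ∑ j', max (-v.ord (u j')) 0 :=
      Finset.single_le_sum (f := fun j' => max (-v.ord (u j')) 0)
        (fun j' _ => le_max_right _ _) (Finset.mem_univ j)
    have h2 : -v.ord (u j) ≤ max (-v.ord (u j)) 0 := le_max_left _ _
    have h3 : ((i : ℕ) : ℤ) * (-v.ord x) ≤ (l : ℤ) * max (-v.ord x) 0 := by
      have hi : ((i : ℕ) : ℤ) ≤ l := by
        have := i.2
        omega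
      calc ((i : ℕ) : ℤ) * (-v.ord x) ≤ ((i : ℕ) : ℤ) * max (-v.ord x) 0 :=
            mul_le_mul_of_nonneg_left (le_max_left _ _) (by positivity)
        _ ≤ (l : ℤ) * max (-v.ord x) 0 :=
            mul_le_mul_of_nonneg_right hi (le_max_right _ _)
    simp only [nsmul_eq_mul]
    linarith
  have hli : LinearIndependent K (fun p : Fin (l + 1) × Fin n =>
      (⟨x ^ (p.1 : ℕ) * u p.2, hmem p⟩ :
        riemannRochSpace (l • poleDiv K x + ∑ j, poleDiv K (u j)))) := by
    apply LinearIndependent.of_comp (Submodule.subtype _)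
    have h1 := dg_linInd hx u u.linearIndependent
    have h2 := h1.comp (fun p : Fin (l + 1) × Fin n => ((p.1 : ℕ), p.2)) (by
      rintro ⟨a, b⟩ ⟨c, d⟩ hh
      simp only [Prod.mk.injEq] at hh
      exact Prod.ext (Fin.ext hh.1) hh.2)
    exact h2
  have := hli.fintype_card_le_finrank
  simpa [ell] using this

theorem degree_poleDiv [IsAlgClosed K] (h : IsFF K F) {x : F} (hx : Transcendental K x) :
    Divisor.degree (poleDiv K x) = (Module.finrank K⟮x⟯ F : ℤ) := by
  apply le_antisymm
  · rw [dg_poleDiv_eq h, ← dg_finrank_inv]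
    exact degree_zeroDiv_le h (dg_transcendental_inv hx)
  · obtain ⟨C, hC, hl⟩ := exists_le_ell_smul_poleDiv h hx
    by_contra hlt
    push Not at hlt
    set n : ℤ := (Module.finrank K⟮x⟯ F : ℤ) with hn
    set d := Divisor.degree (poleDiv K x) with hd
    set l : ℕ := (2 + Divisor.degree C - n).toNat with hldef
    have h1 : (0 : Divisor K F) ≤ l • poleDiv K x + C :=
      add_nonneg (nsmul_nonneg (dg_poleDiv_nonneg h x) l) hC
    have h2 := ell_le_add h h1
    rw [ell_zero h, map_zero, map_add, map_nsmul, ← hd] at h2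
    have h3 : (((l + 1) * Module.finrank K⟮x⟯ F : ℕ) : ℤ) ≤ (ell (l • poleDiv K x + C) : ℤ) := by
      exact_mod_cast hl l
    push_cast at h3
    rw [← hn] at h3
    simp only [nsmul_eq_mul] at h2
    have h4 : 2 + Divisor.degree C - n ≤ l := Int.self_le_toNat _
    have h5 : (l : ℤ) * (d + 1) ≤ l * n := mul_le_mul_of_nonneg_left (by omega) (by positivity)
    push_cast at h2
    nlinarith

theorem degree_zeroDiv [IsAlgClosed K] (h : IsFF K F) {x : F} (hx : Transcendental K x) :
    Divisor.degree (zeroDiv K x) = (Module.finrank K⟮x⟯ F : ℤ) := by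
  rw [dg_zeroDiv_eq h, degree_poleDiv h (dg_transcendental_inv hx), dg_finrank_inv]

theorem degree_divOf [IsAlgClosed K] (h : IsFF K F) (x : F) :
    Divisor.degree (divOf K x) = 0 := by
  by_cases hx : Transcendental K x
  · have h1 : divOf K x = zeroDiv K x - poleDiv K x := by
      ext v
      rw [Finsupp.sub_apply, divOf_apply h, zeroDiv_apply h, poleDiv_apply h]
      rcases le_total 0 (v.ord x) with h0 | h0
      · rw [max_eq_left h0, max_eq_right (by omega)]; ring
      · rw [max_eq_right h0, max_eq_left (by omega)]; ring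
    rw [h1, map_sub, degree_zeroDiv h hx, degree_poleDiv h hx, sub_self]
  · have h1 : divOf K x = 0 := by
      ext v
      rw [divOf_apply h, Finsupp.zero_apply]
      by_contra h0
      exact hx (transcendental_of_ord_ne_zero v h0)
    rw [h1, map_zero]

theorem hasPrincipalDivisors [IsAlgClosed K] (h : IsFF K F) : HasPrincipalDivisors K F :=
  ⟨fun f _ => ⟨divOf K f, divOf_apply h f, degree_divOf h f⟩⟩

theorem dg_exists_of_ell_ne_zero {A : Divisor K F} (hA : ell A ≠ 0) :
    ∃ f ∈ riemannRochSpace A, f ≠ 0 := by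
  by_contra hcon
  push Not at hcon
  apply hA
  have : riemannRochSpace A = ⊥ := (Submodule.eq_bot_iff _).mpr hcon
  rw [ell, this, finrank_bot]

theorem dg_add_divOf_nonneg [IsAlgClosed K] (h : IsFF K F) {A : Divisor K F} {f : F}
    (hf : f ∈ riemannRochSpace A) (hf0 : f ≠ 0) : 0 ≤ A + divOf K f := by
  intro v
  rw [Finsupp.add_apply, divOf_apply h, Finsupp.zero_apply]
  rcases (mem_L_iff.mp hf) v with h0 | h0
  · exact absurd h0 hf0
  · omega

theorem ell_eq_zero_of_degree_neg [IsAlgClosed K] (h : IsFF K F) {A : Divisor K F}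
    (hA : Divisor.degree A < 0) : ell A = 0 := by
  by_contra hne
  obtain ⟨f, hf, hf0⟩ := dg_exists_of_ell_ne_zero hne
  have h1 := dg_degree_nonneg h (dg_add_divOf_nonneg h hf hf0)
  rw [map_add, degree_divOf h, add_zero] at h1
  omega

theorem ell_le_degree_add_one [IsAlgClosed K] (h : IsFF K F) {A : Divisor K F}
    (hA : 0 ≤ Divisor.degree A) : (ell A : ℤ) ≤ Divisor.degree A + 1 := by
  by_cases hne : ell A = 0
  · rw [hne]; push_cast; omega
  obtain ⟨f, hf, hf0⟩ := dg_exists_of_ell_ne_zero hne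
  have h1 := ell_le_add h (dg_add_divOf_nonneg h hf hf0)
  rw [ell_add_divOf h A hf0, ell_zero h, map_zero, map_add, degree_divOf h] at h1
  push_cast at h1
  omega

end Fermat.Agent.FFLib
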