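import Fermat.Agent.Lib.FF.Defs
import Fermat.Agent.Lib.FF.ValRing
import Fermat.Agent.Lib.FF.LSpace
import Fermat.Agent.Lib.FF.Degree

/-!
# (RI) Riemann's theorem (Stichtenoth 1.4.14 - 1.4.17), any characteristic
-/

set_option autoImplicit false

open AlgebraicCurve IntermediateField Polynomial Fermat.Agent.S24Lib

namespace Fermat.Agent.FFLib

variable {K F : Type*} [Field K] [Field F] [Algebra K F]

theorem ri_mono [IsAlgClosed K] (h : IsFF K F) {A B : Divisor K F} (hAB : A ≤ B) :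
    Divisor.degree A - ell A ≤ Divisor.degree B - ell B := by
  have := ell_le_add h hAB
  omega

theorem ri_divOf_inv [IsAlgClosed K] (h : IsFF K F) (z : F) (v : Place K F) :
    divOf K z⁻¹ v = - v.ord z := by
  rw [divOf_apply h, v.ord_inv]

theorem exists_bound_degree_sub_ell [IsAlgClosed K] (h : IsFF K F) :
    ∃ γ : ℤ, ∀ A : Divisor K F, Divisor.degree A - ell A ≤ γ := by
  obtain ⟨x, hx, hfin⟩ := id h
  obtain ⟨C, hC, hl⟩ := exists_le_ell_smul_poleDiv h hx
  set B := poleDiv K x with hB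
  have hdegB := degree_poleDiv h hx
  rw [← hB] at hdegB
  set n : ℤ := (Module.finrank K⟮x⟯ F : ℤ) with hn
  have hn1 : 1 ≤ n := by
    have : 0 < Module.finrank K⟮x⟯ F := Module.finrank_pos
    omega
  -- claim 1
  have c1 : ∀ l : ℕ, Divisor.degree (l • B) - ell (l • B) ≤ Divisor.degree C - n := by
    intro l
    have h1 : l • B ≤ l • B + C := le_add_of_nonneg_right hC
    have h2 := ell_le_add h h1
    have h3 : (((l + 1) * Module.finrank K⟮x⟯ F : ℕ) : ℤ) ≤ (ell (l • B + C) : ℤ) := by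
      exact_mod_cast hl l
    push_cast at h3
    rw [← hn] at h3
    rw [map_add, map_nsmul, hdegB] at h2
    rw [map_nsmul, hdegB]
    simp only [nsmul_eq_mul] at h2 ⊢
    nlinarith
  refine ⟨Divisor.degree C - n, fun A => ?_⟩
  set A₁ : Divisor K F := A ⊔ 0 with hA₁
  have hAA₁ : A ≤ A₁ := le_sup_left
  have hA₁0 : 0 ≤ A₁ := le_sup_right
  set l : ℕ := (Divisor.degree C - n + Divisor.degree A₁ + 1).toNat with hldef
  have hl1 : Divisor.degree C - n + Divisor.degree A₁ + 1 ≤ l := Int.self_le_toNat _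
  have h1 : l • B - A₁ ≤ l • B := sub_le_self _ hA₁0
  have h2 := ell_le_add h h1
  have h3 := c1 l
  rw [map_sub] at h2
  have h4 : Divisor.degree (l • B) = l * n := by
    rw [map_nsmul, hdegB]; simp
  have h5 : (l : ℤ) ≤ l * n := by nlinarith
  have h6 : ell (l • B - A₁) ≠ 0 := by
    intro h0
    rw [h0] at h2
    push_cast at h2
    omega
  obtain ⟨z, hz, hz0⟩ := dg_exists_of_ell_ne_zero h6
  have h7 : A₁ + divOf K z⁻¹ ≤ l • B := by
    intro v
    rw [Finsupp.add_apply, ri_divOf_inv h]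
    rcases (mem_L_iff.mp hz) v with h0 | h0
    · exact absurd h0 hz0
    · rw [Finsupp.sub_apply] at h0
      omega
  have h8 := ri_mono h h7
  rw [ell_add_divOf h A₁ (inv_ne_zero hz0), map_add, degree_divOf h, add_zero] at h8
  have h9 := ri_mono h hAA₁
  omega

theorem ri_nonempty [IsAlgClosed K] (h : IsFF K F) :
    {g : ℕ | ∀ A : Divisor K F, Divisor.degree A + 1 - (g : ℤ) ≤ (ell A : ℤ)}.Nonempty := by
  obtain ⟨γ, hγ⟩ := exists_bound_degree_sub_ell h
  refine ⟨(γ + 1).toNat, fun A => ?_⟩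
  have h1 := hγ A
  have h2 : γ + 1 ≤ ((γ + 1).toNat : ℤ) := Int.self_le_toNat _
  omega

theorem riemann_inequality [IsAlgClosed K] (h : IsFF K F) (A : Divisor K F) :
    Divisor.degree A + 1 - (genusR K F : ℤ) ≤ (ell A : ℤ) :=
  (Nat.sInf_mem (ri_nonempty h)) A

theorem ri_exists_eq [IsAlgClosed K] (h : IsFF K F) :
    ∃ A₀ : Divisor K F, (ell A₀ : ℤ) = Divisor.degree A₀ + 1 - (genusR K F : ℤ) := by
  rcases Nat.eq_zero_or_pos (genusR K F) with h0 | h0
  · refine ⟨0, ?_⟩
    rw [ell_zero h, h0]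
    simp
  · have h1 : genusR K F - 1 ∉
        {g : ℕ | ∀ A : Divisor K F, Divisor.degree A + 1 - (g : ℤ) ≤ (ell A : ℤ)} :=
      Nat.notMem_of_lt_sInf (by unfold genusR at h0 ⊢; omega)
    simp only [Set.mem_ofPred_eq, not_forall, not_le] at h1
    obtain ⟨A₀, hA₀⟩ := h1
    refine ⟨A₀, ?_⟩
    have h2 := riemann_inequality h A₀
    have h3 : ((genusR K F - 1 : ℕ) : ℤ) = (genusR K F : ℤ) - 1 := by
      rw [Nat.cast_sub h0]; simp
    rw [h3] at hA₀
    omega

theorem riemann_equality [IsAlgClosed K] (h : IsFF K F) :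
    ∃ c : ℤ, ∀ A : Divisor K F, c ≤ Divisor.degree A →
      (ell A : ℤ) = Divisor.degree A + 1 - (genusR K F : ℤ) := by
  obtain ⟨A₀, hA₀⟩ := ri_exists_eq h
  refine ⟨Divisor.degree A₀ + genusR K F, fun A hA => ?_⟩
  have h1 := riemann_inequality h (A - A₀)
  rw [map_sub] at h1
  have h2 : ell (A - A₀) ≠ 0 := by
    intro h0
    rw [h0] at h1
    push_cast at h1
    omega
  obtain ⟨z, hz, hz0⟩ := dg_exists_of_ell_ne_zero h2
  have h3 : A₀ ≤ A + divOf K z := by
    intro v
    rw [Finsupp.add_apply, divOf_apply h]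
    rcases (mem_L_iff.mp hz) v with h0 | h0
    · exact absurd h0 hz0
    · rw [Finsupp.sub_apply] at h0
      omega
  have h4 := ri_mono h h3
  rw [ell_add_divOf h A hz0, map_add, degree_divOf h, add_zero] at h4
  have h5 := riemann_inequality h A
  omega

theorem exists_place [IsAlgClosed K] (h : IsFF K F) : Nonempty (Place K F) := by
  obtain ⟨x, hx, -⟩ := id h
  obtain ⟨v, -⟩ := exists_place_ord_pos h hx
  exact ⟨v⟩

theorem degree_single' [IsAlgClosed K] (h : IsFF K F) (v : Place K F) (n : ℤ) :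
    Divisor.degree (Finsupp.single v n) = n := by
  rw [Divisor.degree_single, deg_eq_one h v]
  simp

theorem genusR_eq_of_forall [IsAlgClosed K] (h : IsFF K F) (g : ℕ) (c : ℤ)
    (hg : ∀ A : Divisor K F, c ≤ Divisor.degree A → (ell A : ℤ) = Divisor.degree A + 1 - (g : ℤ)) :
    genusR K F = g := by
  obtain ⟨c', hc'⟩ := riemann_equality h
  obtain ⟨v⟩ := exists_place h
  have h1 := hg (Finsupp.single v (max c c')) (by rw [degree_single' h]; exact le_max_left _ _)
  have h2 := hc' (Finsupp.single v (max c c')) (by rw [degree_single' h]; exact le_max_right _ _)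
  omega

end Fermat.Agent.FFLib
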