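import Mathlib
import Fermat.Prelude.Def_AlgebraicCurve_Repartitions
import Fermat.Agent.S24.OrdDiff

/-!
# Function fields in one variable over an algebraically closed field of ANY characteristic:
definitions for Riemann's theorem (Stichtenoth, Chapter 1).

`AlgebraicCurve.riemannRochSpace A` (Prelude) is `L(A)`.
-/

set_option autoImplicit false

open AlgebraicCurve IntermediateField Fermat.Agent.S24Lib

namespace Fermat.Agent.FFLib

variable {K F : Type*} [Field K] [Field F] [Algebra K F]

/-- `ℓ(A) = dim_K L(A)` -/
noncomputable def ell (A : Divisor K F) : ℕ := Module.finrank K (riemannRochSpace A)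

theorem mem_L_iff {A : Divisor K F} {f : F} :
    f ∈ riemannRochSpace A ↔ ∀ v : Place K F, D2_ge v (-A v) f :=
  mem_riemannRochSpace_iff

open Classical in
/-- the principal divisor of `x` (junk value `0` if `x` has infinitely many zeros and poles,
which never happens for a function field, see `divOf_apply`). -/
noncomputable def divOf (K : Type*) {F : Type*} [Field K] [Field F] [Algebra K F] (x : F) :
    Divisor K F :=
  if hx : {v : Place K F | v.ord x ≠ 0}.Finite then
    Finsupp.onFinset hx.toFinset (fun v => v.ord x) (fun v hv => by simpa using hv)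
  else 0

/-- the pole divisor `(x)_∞` -/
noncomputable def poleDiv (K : Type*) {F : Type*} [Field K] [Field F] [Algebra K F] (x : F) :
    Divisor K F :=
  (divOf K x).mapRange (fun n => max (-n) 0) (by simp)

/-- the zero divisor `(x)_0` -/
noncomputable def zeroDiv (K : Type*) {F : Type*} [Field K] [Field F] [Algebra K F] (x : F) :
    Divisor K F :=
  (divOf K x).mapRange (fun n => max n 0) (by simp)

/-- the Riemann genus: the least `g` with `deg A + 1 - g ≤ ℓ(A)` for all `A`. -/
noncomputable def genusR (K F : Type*) [Field K] [Field F] [Algebra K F] : ℕ :=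
  sInf {g : ℕ | ∀ A : Divisor K F, Divisor.degree A + 1 - (g : ℤ) ≤ (ell A : ℤ)}

end Fermat.Agent.FFLib
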