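import Fermat.Agent.Lib.FF.Riemann

/-!
# (LT) the trace of a function vanishing at all places above a place of the base vanishes there
-/

set_option autoImplicit false

open AlgebraicCurve IntermediateField Polynomial Fermat.Agent.S24Lib

namespace Fermat.Agent.FFLib

variable {K F : Type*} [Field K] [Field F] [Algebra K F]

/-- a valuation ring of an extension `Ω` of `F` dominating the valuation ring of a place -/
theorem lt_exists_extension (Q₀ : Place K F) (Ω : Type*) [Field Ω] [Algebra F Ω] :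
    ∃ O' : ValuationSubring Ω,
      (∀ x : F, 0 ≤ Q₀.ord x → algebraMap F Ω x ∈ O') ∧
      (∀ x : F, 0 < Q₀.ord x → O'.valuation (algebraMap F Ω x) < 1) := by
  obtain ⟨π, hπ⟩ := IsDiscreteValuationRing.exists_irreducible Q₀.toValuationSubring
  set A : Subring Ω := (Q₀.toValuationSubring.toSubring).map (algebraMap F Ω) with hA
  have hπA : algebraMap F Ω (π : F) ∈ A := Subring.mem_map.2 ⟨π, π.2, rfl⟩
  have hI : Ideal.span {(⟨algebraMap F Ω (π : F), hπA⟩ : A)} ≠ ⊤ := by
    intro htop
    rw [Ideal.span_singleton_eq_top] at htop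
    obtain ⟨⟨y, hy⟩, hxy⟩ := isUnit_iff_exists_inv.mp htop
    obtain ⟨y₀, hy₀, rfl⟩ := Subring.mem_map.1 hy
    have h1 : algebraMap F Ω (π : F) * algebraMap F Ω y₀ = 1 := congrArg Subtype.val hxy
    rw [← map_mul] at h1
    have h2 : (π : F) * y₀ = 1 := (algebraMap F Ω).injective (by rw [h1, map_one])
    exact hπ.not_isUnit (IsUnit.of_mul_eq_one ⟨y₀, hy₀⟩ (Subtype.ext h2))
  obtain ⟨O', hAO, hnon⟩ := Ideal.image_subset_nonunits_valuationSubring _ hI
  have h0 : ∀ x : F, 0 ≤ Q₀.ord x → algebraMap F Ω x ∈ O' := fun x hx =>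
    hAO (Subring.mem_map.2 ⟨x, (mem_valuationSubring_iff Q₀ x).2 hx, rfl⟩)
  have hπnon : algebraMap F Ω (π : F) ∈ O'.nonunits :=
    hnon ⟨⟨_, hπA⟩, Ideal.subset_span rfl, rfl⟩
  have hπv : O'.valuation (algebraMap F Ω (π : F)) < 1 :=
    (ValuationSubring.mem_nonunits_iff O').mp hπnon
  refine ⟨O', h0, fun x hx => ?_⟩
  have hπ0 : (π : F) ≠ 0 := by
    simpa [ne_eq, ZeroMemClass.coe_eq_zero] using hπ.ne_zero
  have hx0 : x ≠ 0 := by
    rintro rfl
    simp at hx
  have h1 : 0 ≤ Q₀.ord (x * (π : F)⁻¹) := by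
    rw [Q₀.ord_mul hx0 (inv_ne_zero hπ0), Q₀.ord_inv, Q₀.ord_coe_irreducible hπ]
    omega
  have h2 : x = x * (π : F)⁻¹ * π := by
    field_simp
  rw [h2, map_mul, map_mul]
  calc O'.valuation (algebraMap F Ω (x * (π : F)⁻¹)) * O'.valuation (algebraMap F Ω (π : F))
      ≤ 1 * O'.valuation (algebraMap F Ω (π : F)) :=
        mul_le_mul_left ((O'.valuation_le_one_iff _).mpr (h0 _ h1)) _
    _ = O'.valuation (algebraMap F Ω (π : F)) := one_mul _
    _ < 1 := hπv

theorem lt_valuation_lt_one_iff {Ω : Type*} [Field Ω] (O' : ValuationSubring Ω) {y : Ω}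
    (hy : y ≠ 0) : O'.valuation y < 1 ↔ y⁻¹ ∉ O' := by
  have h4 : O'.valuation y ≠ 0 := (Valuation.ne_zero_iff _).mpr hy
  rw [← O'.valuation_le_one_iff, map_inv₀, not_le, one_lt_inv₀ (zero_lt_iff.mpr h4)]

theorem ord_trace_pos (h : IsFF K F) (L : IntermediateField K F) [FiniteDimensional L F]
    [Algebra.IsSeparable L F] (Q₀ : Place K F) (w : F)
    (hw : ∀ Q : Place K F, (∀ r : L, 0 < Q₀.ord (r : F) → 0 < Q.ord (r : F)) → D2_ge Q 1 w) :
    D2_ge Q₀ 1 ((Algebra.trace L F w : L) : F) := by
  obtain ⟨O', hO1, hO2⟩ := lt_exists_extension Q₀ (AlgebraicClosure F)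
  -- each conjugate of `w` lies in the maximal ideal
  have hσL : ∀ (σ : F →ₐ[L] AlgebraicClosure F) (r : L),
      σ (r : F) = algebraMap F (AlgebraicClosure F) (r : F) := by
    intro σ r
    have := σ.commutes r
    rw [IsScalarTower.algebraMap_apply L F (AlgebraicClosure F)] at this
    exact this
  have hnotL : ∃ a : L, algebraMap F (AlgebraicClosure F) (a : F) ∉ O' := by
    by_contra hcon
    push Not at hcon
    obtain ⟨π, hπ⟩ := IsDiscreteValuationRing.exists_irreducible Q₀.toValuationSubring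
    have hπ0 : (π : F) ≠ 0 := by
      simpa [ne_eq, ZeroMemClass.coe_eq_zero] using hπ.ne_zero
    have hπv := hO2 π (by rw [Q₀.ord_coe_irreducible hπ]; exact one_pos)
    have htr : Transcendental L (algebraMap F (AlgebraicClosure F) (π : F)) :=
      vr_transcendental O' (fun a => by
        rw [IsScalarTower.algebraMap_apply L F (AlgebraicClosure F)]
        exact hcon a) ((_root_.map_ne_zero _).2 hπ0) hπv
    exact htr ((Algebra.IsAlgebraic.isAlgebraic (R := L) (π : F)).algebraMap)
  have key : ∀ σ : F →ₐ[L] AlgebraicClosure F, O'.valuation (σ w) < 1 := by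
    intro σ
    have hK : ∀ a : K, algebraMap K F a ∈ O'.comap (σ : F →+* AlgebraicClosure F) := by
      intro a
      rw [ValuationSubring.mem_comap]
      have h1 := hσL σ (algebraMap K L a)
      have h2 : ((algebraMap K L a : L) : F) = algebraMap K F a := rfl
      rw [h2] at h1
      change σ (algebraMap K F a) ∈ O'
      rw [h1]
      exact hO1 _ (by rw [ord_algebraMap])
    have hO : O'.comap (σ : F →+* AlgebraicClosure F) ≠ ⊤ := by
      intro htop
      obtain ⟨a, ha⟩ := hnotL
      apply ha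
      have h1 : (a : F) ∈ O'.comap (σ : F →+* AlgebraicClosure F) :=
        htop ▸ ValuationSubring.mem_top _
      rw [ValuationSubring.mem_comap] at h1
      rw [← hσL σ a]
      exact h1
    obtain ⟨Q, hQ⟩ := exists_place_of_valuationSubring h _ hK hO
    have hmem : ∀ x : F, 0 ≤ Q.ord x ↔ σ x ∈ O' := by
      intro x
      rw [← mem_valuationSubring_iff, hQ, ValuationSubring.mem_comap]
      rfl
    have hQr : ∀ r : L, 0 < Q₀.ord (r : F) → 0 < Q.ord (r : F) := by
      intro r hr
      have hr0 : (r : F) ≠ 0 := by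
        intro h0
        rw [h0] at hr
        simp at hr
      have h1 := hO2 _ hr
      rw [← hσL σ r, lt_valuation_lt_one_iff O' ((_root_.map_ne_zero _).2 hr0), ← map_inv₀,
        ← hmem, Q.ord_inv] at h1
      omega
    rcases hw Q hQr with rfl | h1
    · rw [map_zero, map_zero]
      exact zero_lt_one
    · have hw0 : w ≠ 0 := by
        rintro rfl
        simp at h1
      rw [lt_valuation_lt_one_iff O' ((_root_.map_ne_zero _).2 hw0), ← map_inv₀, ← hmem,
        Q.ord_inv]
      omega
  have hsum : O'.valuation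
      (algebraMap F (AlgebraicClosure F) ((Algebra.trace L F w : L) : F)) < 1 := by
    have h1 := trace_eq_sum_embeddings (K := L) (L := F) (AlgebraicClosure F) (x := w)
    rw [IsScalarTower.algebraMap_apply L F (AlgebraicClosure F)] at h1
    have h2 : algebraMap L F (Algebra.trace L F w) = ((Algebra.trace L F w : L) : F) := rfl
    rw [h2] at h1
    rw [h1]
    exact Valuation.map_sum_lt _ one_ne_zero fun σ _ => key σ
  by_cases h0 : ((Algebra.trace L F w : L) : F) = 0
  · exact Or.inl h0
  · right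
    rw [lt_valuation_lt_one_iff O' ((_root_.map_ne_zero _).2 h0), ← map_inv₀] at hsum
    by_contra hcon
    apply hsum
    apply hO1
    rw [Q₀.ord_inv]
    omega

end Fermat.Agent.FFLib
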