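import Fermat.Agent.Lib.FF.Zeros

/-!
# Orders of rational functions of `t` at the zeros of `t - c` and at the poles of `t`
-/

set_option autoImplicit false

open AlgebraicCurve IntermediateField Polynomial Fermat.Agent.S24Lib

namespace Fermat.Agent.FFLib

variable {K F : Type*} [Field K] [Field F] [Algebra K F]

theorem uo_poly_zero {t : F} (p : K[X]) (hp : p ≠ 0) (c : K) :
    ∃ m : ℕ, ∀ Q : Place K F, 0 < Q.ord (t - algebraMap K F c) →
      aeval t p ≠ 0 ∧ Q.ord (aeval t p) = m * Q.ord (t - algebraMap K F c) := by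
  obtain ⟨p1, hp1, hndvd⟩ := exists_eq_pow_rootMultiplicity_mul_and_not_dvd p hp c
  refine ⟨p.rootMultiplicity c, fun Q hQ => ?_⟩
  set u := t - algebraMap K F c with hu
  have hu0 : u ≠ 0 := wa_ne_zero_of_ord_ne hQ.ne'
  have h1 : aeval t p1 = aeval u (p1.comp (X + C c)) := by
    rw [aeval_comp]
    congr 1
    simp [hu]
  have h2 : (p1.comp (X + C c)).coeff 0 ≠ 0 := by
    rw [coeff_zero_eq_eval_zero, eval_comp]
    simp only [eval_add, eval_X, eval_C, zero_add]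
    intro h0
    exact hndvd (dvd_iff_isRoot.2 h0)
  obtain ⟨h3, h4⟩ := ze_ord_aeval Q hQ h2
  have h5 : aeval t p = u ^ p.rootMultiplicity c * aeval t p1 := by
    conv_lhs => rw [hp1]
    simp [hu]
  rw [← h1] at h3 h4
  rw [h5]
  refine ⟨mul_ne_zero (pow_ne_zero _ hu0) h3, ?_⟩
  rw [Q.ord_mul (pow_ne_zero _ hu0) h3, h4, add_zero, wa_ord_pow]

theorem uo_poly_pole {t : F} (p : K[X]) (hp : p ≠ 0) (Q : Place K F) (hQ : Q.ord t < 0) :
    aeval t p ≠ 0 ∧ Q.ord (aeval t p) = p.natDegree * Q.ord t := by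
  have ht0 : t ≠ 0 := wa_ne_zero_of_ord_ne hQ.ne
  have hs : 0 < Q.ord t⁻¹ := by
    rw [Q.ord_inv]
    omega
  have h2 : p.reverse.coeff 0 ≠ 0 := by
    rw [coeff_zero_reverse]
    exact leadingCoeff_ne_zero.2 hp
  obtain ⟨h3, h4⟩ := ze_ord_aeval Q hs h2
  have h5 : aeval t p = aeval t⁻¹ p.reverse * t ^ p.natDegree := by
    let _ : Invertible t := invertibleOfNonzero ht0
    have := eval₂_reverse_mul_pow (algebraMap K F) t p
    rw [invOf_eq_inv] at this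
    rw [aeval_def, aeval_def, this]
  rw [h5]
  refine ⟨mul_ne_zero h3 (pow_ne_zero _ ht0), ?_⟩
  rw [Q.ord_mul h3 (pow_ne_zero _ ht0), h4, zero_add, wa_ord_pow]

theorem uo_exists_frac {t : F} (r : K⟮t⟯) (hr : r ≠ 0) :
    ∃ p q : K[X], p ≠ 0 ∧ q ≠ 0 ∧ (r : F) = aeval t p / aeval t q := by
  obtain ⟨p, q, hpq⟩ := (mem_adjoin_simple_iff K (r : F)).1 r.2
  have hr' : (r : F) ≠ 0 := by
    intro h
    exact hr (Subtype.ext h)
  refine ⟨p, q, ?_, ?_, hpq⟩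
  · rintro rfl
    rw [map_zero, zero_div] at hpq
    exact hr' hpq
  · rintro rfl
    rw [map_zero, div_zero] at hpq
    exact hr' hpq

theorem exists_ord_eq_mul_of_zero {t : F} (r : K⟮t⟯) (hr : r ≠ 0) (c : K) :
    ∃ a : ℤ, ∀ Q : Place K F, 0 < Q.ord (t - algebraMap K F c) →
      Q.ord (r : F) = a * Q.ord (t - algebraMap K F c) := by
  obtain ⟨p, q, hp, hq, hpq⟩ := uo_exists_frac r hr
  obtain ⟨m, hm⟩ := uo_poly_zero (t := t) p hp c
  obtain ⟨n, hn⟩ := uo_poly_zero (t := t) q hq c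
  refine ⟨(m : ℤ) - n, fun Q hQ => ?_⟩
  obtain ⟨h1, h2⟩ := hm Q hQ
  obtain ⟨h3, h4⟩ := hn Q hQ
  rw [hpq, div_eq_mul_inv, Q.ord_mul h1 (inv_ne_zero h3), Q.ord_inv, h2, h4]
  ring

theorem exists_ord_eq_mul_of_pole {t : F} (r : K⟮t⟯) (hr : r ≠ 0) :
    ∃ a : ℤ, ∀ Q : Place K F, Q.ord t < 0 → Q.ord (r : F) = a * Q.ord t := by
  obtain ⟨p, q, hp, hq, hpq⟩ := uo_exists_frac r hr
  refine ⟨(p.natDegree : ℤ) - q.natDegree, fun Q hQ => ?_⟩
  obtain ⟨h1, h2⟩ := uo_poly_pole p hp Q hQ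
  obtain ⟨h3, h4⟩ := uo_poly_pole q hq Q hQ
  rw [hpq, div_eq_mul_inv, Q.ord_mul h1 (inv_ne_zero h3), Q.ord_inv, h2, h4]
  ring

end Fermat.Agent.FFLib
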