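import Mathlib

/-!
# (SEP) separability from a derivation

If `F/k(t)` is algebraic, `k` perfect, and some `k`-derivation `D` of `F` (with values in a field
extension) satisfies `D t ≠ 0`, then `F/k(t)` is separable.
-/

set_option autoImplicit false
set_option linter.unusedSectionVars false

open IntermediateField Polynomial

namespace Fermat.Agent.FFLib

section

variable {k F Ω : Type*} [Field k] [Field F] [Algebra k F] [Field Ω] [Algebra F Ω] [Algebra k Ω]
  [IsScalarTower k F Ω] (D : Derivation k F Ω)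

theorem sep_smul_eq_zero {a : F} {w : Ω} (hw : w ≠ 0) (h : a • w = 0) : a = 0 := by
  rw [Algebra.smul_def] at h
  rcases mul_eq_zero.mp h with h | h
  · exact (map_eq_zero (algebraMap F Ω)).mp h
  · exact absurd h hw

theorem sep_transcendental [PerfectField k] (t : F) (hD : D t ≠ 0) : Transcendental k t := by
  intro halg
  have hsep : (minpoly k t).Separable :=
    PerfectField.separable_of_irreducible (minpoly.irreducible halg.isIntegral)
  have h1 : D (aeval t (minpoly k t)) = 0 := by rw [minpoly.aeval]; simp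
  rw [Derivation.map_aeval] at h1
  have h2 := sep_smul_eq_zero hD h1
  exact hsep.aeval_derivative_ne_zero (minpoly.aeval k t) h2

theorem sep_D_pow (p : ℕ) [CharP Ω p] (x : F) : D (x ^ p) = 0 := by
  rw [Derivation.leibniz_pow]
  have : (p : ℕ) • (x ^ (p - 1) • D x) = (p : Ω) * (x ^ (p - 1) • D x) := by
    rw [nsmul_eq_mul]
  rw [this, CharP.cast_eq_zero, zero_mul]

theorem sep_exists_rep (p : ℕ) (hp0 : 0 < p) (t c : F) (hc : c ∈ k⟮t⟯) :
    ∃ R Q : k[X], aeval t Q ≠ 0 ∧ c * (aeval t Q) ^ p = aeval t R := by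
  obtain ⟨r, s, hrs⟩ := (mem_adjoin_simple_iff k c).mp hc
  by_cases hs : aeval t s = 0
  · refine ⟨0, 1, by simp, ?_⟩
    rw [hrs, hs]; simp
  · refine ⟨r * s ^ (p - 1), s, hs, ?_⟩
    rw [hrs, map_mul, map_pow]
    have : (aeval t s) ^ p = aeval t s * (aeval t s) ^ (p - 1) := by
      rw [← pow_succ']; congr 1; omega
    rw [this]
    field_simp

/-- the basic formula `Q(t)^p • D c = R'(t) • D t` -/
theorem sep_D_rep (p : ℕ) [CharP Ω p] (t c : F) (R Q : k[X])
    (h : c * (aeval t Q) ^ p = aeval t R) :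
    (aeval t Q) ^ p • D c = aeval t (derivative R) • D t := by
  have h1 := congrArg D h
  rw [Derivation.leibniz, sep_D_pow D p, smul_zero, zero_add, Derivation.map_aeval] at h1
  exact h1

theorem sep_aeval_mem (t : F) (P : k[X]) : aeval t P ∈ k⟮t⟯ :=
  IntermediateField.algebra_adjoin_le_adjoin k _ (Polynomial.aeval_mem_adjoin_singleton k t)

/-- `D` maps `k(t)` into `k(t) • D t` -/
theorem sep_exists_delta (p : ℕ) (hp0 : 0 < p) [CharP Ω p] (t : F) (c : k⟮t⟯) :
    ∃ c' : k⟮t⟯, D (c : F) = (c' : F) • D t := by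
  obtain ⟨R, Q, hQ, h⟩ := sep_exists_rep p hp0 t (c : F) c.2
  have h1 := sep_D_rep D p t (c : F) R Q h
  refine ⟨⟨aeval t (derivative R) / (aeval t Q) ^ p,
    div_mem (sep_aeval_mem t _) (pow_mem (sep_aeval_mem t _) p)⟩, ?_⟩
  have hQp : (aeval t Q) ^ p ≠ 0 := pow_ne_zero _ hQ
  have h2 : D (c : F) = ((aeval t Q) ^ p)⁻¹ • ((aeval t Q) ^ p • D (c : F)) := by
    rw [smul_smul, inv_mul_cancel₀ hQp, one_smul]
  rw [h2, h1, smul_smul]
  congr 1
  change _ = aeval t (derivative R) / (aeval t Q) ^ p
  field_simp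

/-- the constants of `D` in `k(t)` are the `p`-th powers -/
theorem sep_exists_root [PerfectField k] (p : ℕ) [hp : Fact p.Prime] [CharP k p] [CharP Ω p]
    (t : F) (hD : D t ≠ 0) (c : k⟮t⟯) (hc : D (c : F) = 0) : ∃ b : k⟮t⟯, b ^ p = c := by
  obtain ⟨R, Q, hQ, h⟩ := sep_exists_rep p hp.out.pos t (c : F) c.2
  have h1 := sep_D_rep D p t (c : F) R Q h
  rw [hc, smul_zero] at h1
  have h2 : aeval t (derivative R) = 0 := sep_smul_eq_zero hD h1.symm
  have h3 : derivative R = 0 := (transcendental_iff.mp (sep_transcendental D t hD)) _ h2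
  have h4 : expand k p (contract p R) = R := expand_contract p h3 hp.out.ne_zero
  have : ExpChar k p := ExpChar.prime hp.out
  set S' : k[X] := (contract p R).map ((frobeniusEquiv k p).symm : k →+* k) with hS'
  have h5 : S'.map (frobenius k p) = contract p R := by
    rw [hS', Polynomial.map_map]
    have : (frobenius k p).comp ((frobeniusEquiv k p).symm : k →+* k) = RingHom.id k := by
      ext x
      simp
    rw [this, Polynomial.map_id]
  have h6 : S' ^ p = R := by
    rw [← map_frobenius_expand, map_expand, h5, h4]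
  refine ⟨⟨aeval t S' / aeval t Q, div_mem (sep_aeval_mem t _) (sep_aeval_mem t _)⟩, ?_⟩
  apply Subtype.ext
  change (aeval t S' / aeval t Q) ^ p = (c : F)
  rw [div_pow, ← map_pow, h6, ← h]
  field_simp

end

theorem isSeparable_of_derivation_ne_zero {k F Ω : Type*} [Field k] [PerfectField k] [Field F]
    [Algebra k F] [Field Ω] [Algebra F Ω] [Algebra k Ω] [IsScalarTower k F Ω]
    (D : Derivation k F Ω) (t : F) (hD : D t ≠ 0) [Algebra.IsAlgebraic k⟮t⟯ F] :
    Algebra.IsSeparable k⟮t⟯ F := by
  obtain ⟨p, hpe⟩ := ExpChar.exists k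
  rcases hpe with _ | ⟨hprime⟩
  · -- characteristic zero
    have : CharZero k⟮t⟯ := charZero_of_injective_algebraMap (algebraMap k k⟮t⟯).injective
    exact Algebra.IsAlgebraic.isSeparable_of_perfectField
  have : Fact p.Prime := ⟨hprime⟩
  have : CharP k⟮t⟯ p := charP_of_injective_algebraMap (algebraMap k k⟮t⟯).injective p
  have : CharP Ω p := charP_of_injective_algebraMap (algebraMap k Ω).injective p
  refine ⟨fun y => ?_⟩
  have hint : IsIntegral k⟮t⟯ y := (Algebra.IsAlgebraic.isAlgebraic y).isIntegral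
  have hirr := minpoly.irreducible hint
  rcases separable_or p hirr with hsep | ⟨-, g, hg, hgm⟩
  · exact hsep
  exfalso
  set n := g.natDegree with hn
  have hmonic : g.Monic := by
    have := minpoly.monic hint
    rw [← hgm] at this
    exact (monic_expand_iff hprime.pos).mp this
  have hroot : aeval (y ^ p) g = 0 := by
    rw [← expand_aeval, hgm, minpoly.aeval]
  choose δ hδ using sep_exists_delta D p hprime.pos t
  -- apply `D` to the relation
  have hyp : ∀ i : ℕ, D ((y ^ p) ^ i) = 0 := by
    intro i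
    rw [← pow_mul, mul_comm, pow_mul]
    exact sep_D_pow D p _
  have hrel : ∑ i ∈ Finset.range n, ((δ (g.coeff i) : k⟮t⟯) : F) * (y ^ p) ^ i = 0 := by
    have h1 := congrArg D hroot
    rw [aeval_eq_sum_range, map_zero, map_sum, Finset.sum_range_succ] at h1
    have htop : D (g.coeff g.natDegree • (y ^ p) ^ g.natDegree) = 0 := by
      rw [show g.coeff g.natDegree = 1 from hmonic, one_smul, hyp]
    rw [htop, add_zero] at h1
    have h2 : ∀ i, D (g.coeff i • (y ^ p) ^ i) =
        (((δ (g.coeff i) : k⟮t⟯) : F) * (y ^ p) ^ i) • D t := by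
      intro i
      rw [Algebra.smul_def, Derivation.leibniz, hyp, smul_zero, zero_add]
      change (y ^ p) ^ i • D ((g.coeff i : k⟮t⟯) : F) = _
      rw [hδ, smul_smul, mul_comm]
    simp only [h2] at h1
    rw [← Finset.sum_smul] at h1
    exact sep_smul_eq_zero hD h1
  set gδ : (k⟮t⟯)[X] := ∑ i ∈ Finset.range n, monomial i (δ (g.coeff i)) with hgδ
  have hgδroot : aeval y (expand k⟮t⟯ p gδ) = 0 := by
    rw [expand_aeval, hgδ, map_sum, ← hrel]
    refine Finset.sum_congr rfl fun i _ => ?_
    rw [aeval_monomial]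
    rfl
  have hcoeff : ∀ m, gδ.coeff m = if m < n then δ (g.coeff m) else 0 := by
    intro m
    rw [hgδ, finsetSum_coeff]
    simp only [coeff_monomial]
    rw [Finset.sum_ite_eq' (Finset.range n) m]
    simp
  have hgδ0 : gδ = 0 := by
    by_contra hne
    have h1 : expand k⟮t⟯ p gδ ≠ 0 := by
      rwa [Ne, expand_eq_zero hprime.pos]
    have h2 := natDegree_le_natDegree (minpoly.degree_le_of_ne_zero k⟮t⟯ y h1 hgδroot)
    rw [← hgm, natDegree_expand, natDegree_expand] at h2
    have h3 : gδ.natDegree < n := by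
      by_contra hge
      push Not at hge
      have h4 : gδ.coeff gδ.natDegree = 0 := by
        rw [hcoeff, if_neg (by omega)]
      exact hne (leadingCoeff_eq_zero.mp h4)
    have := Nat.mul_lt_mul_of_pos_right h3 hprime.pos
    rw [hn] at this
    omega
  have hDzero : ∀ i, D ((g.coeff i : k⟮t⟯) : F) = 0 := by
    intro i
    rcases lt_trichotomy i n with hi | hi | hi
    · have h1 := hcoeff i
      rw [hgδ0, coeff_zero, if_pos hi] at h1
      rw [hδ, ← h1]; simp
    · rw [hi, show g.coeff n = 1 from hmonic]; simp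
    · rw [coeff_eq_zero_of_natDegree_lt hi]; simp
  have hlift : g ∈ lifts (frobenius k⟮t⟯ p) := by
    rw [lifts_iff_coeff_lifts]
    intro i
    obtain ⟨b, hb⟩ := sep_exists_root D p t hD (g.coeff i) (hDzero i)
    exact ⟨b, by rw [frobenius_def, hb]⟩
  obtain ⟨h, hh⟩ := (mem_lifts _).mp hlift
  have hpow : minpoly k⟮t⟯ y = h ^ p := by
    rw [← hgm, ← hh, ← map_expand, map_frobenius_expand]
  rw [hpow] at hirr
  exact not_irreducible_pow hprime.one_lt.ne' hirr

end Fermat.Agent.FFLib
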