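import Mathlib
import Fermat.Agent.Lib.FF.Separable

/-!
# The derivation `θ = q d/dq` on Laurent series
-/

set_option autoImplicit false

namespace Fermat.Agent.FFLib

variable {R : Type*} [CommRing R]

/-- `θ = q d/dq` as a function -/
noncomputable def thetaFun (f : LaurentSeries R) : LaurentSeries R :=
  ⟨fun n => (n : R) * f.coeff n, f.isPWO_support.mono (by
    intro n hn
    simp only [Function.mem_support, ne_eq] at hn
    simp only [HahnSeries.mem_support, ne_eq]
    intro h0
    exact hn (by rw [h0, mul_zero]))⟩

@[simp]
theorem thetaFun_coeff (f : LaurentSeries R) (n : ℤ) :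
    (thetaFun f).coeff n = (n : R) * f.coeff n := rfl

theorem thetaFun_support (f : LaurentSeries R) : (thetaFun f).support ⊆ f.support := by
  intro n hn
  simp only [HahnSeries.mem_support, ne_eq, thetaFun_coeff] at hn ⊢
  intro h0
  exact hn (by rw [h0, mul_zero])

theorem thetaFun_add (f g : LaurentSeries R) : thetaFun (f + g) = thetaFun f + thetaFun g := by
  ext n
  simp [mul_add]

theorem thetaFun_mul (f g : LaurentSeries R) :
    thetaFun (f * g) = f * thetaFun g + g * thetaFun f := by
  ext n
  rw [mul_comm g (thetaFun f), thetaFun_coeff, HahnSeries.coeff_add, HahnSeries.coeff_mul,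
    HahnSeries.coeff_mul_right' (x := f) (y := thetaFun g) g.isPWO_support (thetaFun_support g),
    HahnSeries.coeff_mul_left' (x := thetaFun f) (y := g) f.isPWO_support (thetaFun_support f),
    Finset.mul_sum, ← Finset.sum_add_distrib]
  refine Finset.sum_congr rfl fun ij hij => ?_
  have h1 : ij.1 + ij.2 = n := (Finset.mem_antidiagonal.mp hij).2.2
  rw [thetaFun_coeff, thetaFun_coeff, ← h1]
  push_cast
  ring

theorem algebraMap_eq_C (c : R) : algebraMap R (LaurentSeries R) c = HahnSeries.C c := by
  rw [HahnSeries.algebraMap_apply', PowerSeries.algebraMap_apply, HahnSeries.ofPowerSeries_C]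
  rfl

theorem thetaFun_C (c : R) : thetaFun (HahnSeries.C c : LaurentSeries R) = 0 := by
  ext n
  rw [thetaFun_coeff, HahnSeries.coeff_zero]
  by_cases hn : n = 0
  · rw [hn]; simp
  · rw [HahnSeries.C_apply, HahnSeries.coeff_single_of_ne hn, mul_zero]

variable (R) in
/-- `θ = q d/dq` as a derivation of `R((q))` (the `R`-module structure on the target is the one
coming from the `R`-algebra structure) -/
noncomputable def thetaD :
    @Derivation R (LaurentSeries R) (LaurentSeries R) _ _ _ _ _ Algebra.toModule :=
  letI : Module R (LaurentSeries R) := Algebra.toModule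
  { toFun := thetaFun
    map_add' := thetaFun_add
    map_smul' := fun c f => by
      rw [Algebra.smul_def, Algebra.smul_def, thetaFun_mul, algebraMap_eq_C, thetaFun_C, mul_zero,
        add_zero, RingHom.id_apply, algebraMap_eq_C]
    map_one_eq_zero' := by
      have h := thetaFun_mul (1 : LaurentSeries R) 1
      rw [mul_one, one_mul] at h
      exact left_eq_add.mp h
    leibniz' := fun f g => by
      rw [smul_eq_mul, smul_eq_mul]
      exact thetaFun_mul f g }

@[simp]
theorem thetaD_coeff (f : LaurentSeries R) (n : ℤ) :
    (thetaD R f).coeff n = (n : R) * f.coeff n := rfl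

/-- `θ f ≠ 0` as soon as `n * a_n ≠ 0` for some `n` -/
theorem thetaD_ne_zero {f : LaurentSeries R} {n : ℤ} (h : (n : R) * f.coeff n ≠ 0) :
    thetaD R f ≠ 0 := by
  intro h0
  apply h
  rw [← thetaD_coeff, h0]
  rfl

/-- the restriction of `θ` to a subfield of `k((q))` -/
noncomputable def thetaDF {k : Type*} [Field k] (F : IntermediateField k (LaurentSeries k)) :
    @Derivation k F (LaurentSeries k) _ _ _ _ _ Algebra.toModule :=
  letI : Module k (LaurentSeries k) := Algebra.toModule
  { toFun := fun x => thetaFun (x : LaurentSeries k)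
    map_add' := fun x y => thetaFun_add _ _
    map_smul' := fun c x => by
      have h := (thetaD k).map_smul c (x : LaurentSeries k)
      exact h
    map_one_eq_zero' := (thetaD k).map_one_eq_zero
    leibniz' := fun x y => by
      rw [Algebra.smul_def, Algebra.smul_def]
      exact thetaFun_mul _ _ }

theorem thetaDF_apply {k : Type*} [Field k] (F : IntermediateField k (LaurentSeries k)) (x : F) :
    thetaDF F x = thetaD k (x : LaurentSeries k) := rfl

open IntermediateField in
/-- a subfield `F` of `k((q))`, algebraic over `k(t)` with `θ t ≠ 0`, is separable over `k(t)` -/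
theorem isSeparable_of_thetaD_ne_zero {k : Type*} [Field k] [PerfectField k]
    (F : IntermediateField k (LaurentSeries k)) (t : F)
    (ht : thetaD k (t : LaurentSeries k) ≠ 0) [Algebra.IsAlgebraic k⟮t⟯ F] :
    Algebra.IsSeparable k⟮t⟯ F :=
  isSeparable_of_derivation_ne_zero (Ω := LaurentSeries k) (thetaDF F) t ht

end Fermat.Agent.FFLib
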