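import Fermat.Agent.Lib.FF.Riemann

/-!
# (WD) Weil's bound: `γ` independent functionals killing the functions regular on `S` and the
functions regular off `S` force `ℓ(E) ≤ deg E + 1 - γ` for divisors of large degree
-/

set_option autoImplicit false
set_option linter.style.haveILetI false

open AlgebraicCurve IntermediateField Polynomial Fermat.Agent.S24Lib

namespace Fermat.Agent.FFLib

variable {K F : Type*} [Field K] [Field F] [Algebra K F]

theorem wd_ord_nonneg {v : Place K F} {f : F} (hf : D2_ge v 0 f) : 0 ≤ v.ord f := by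
  rcases hf with rfl | hf
  · simp
  · exact hf

theorem exists_ell_le_of_functionals [IsAlgClosed K] (h : IsFF K F) (S : Finset (Place K F))
    (hS : S.Nonempty) {γ : ℕ} (Λ : F →ₗ[K] (Fin γ → K)) (hsurj : Function.Surjective Λ)
    (h1 : ∀ y : F, (∀ Q ∈ S, 0 ≤ Q.ord y) → Λ y = 0)
    (h2 : ∀ y : F, (∀ Q, Q ∉ S → 0 ≤ Q.ord y) → Λ y = 0) (c : ℤ) :
    ∃ E : Divisor K F, c ≤ Divisor.degree E ∧ (ell E : ℤ) ≤ Divisor.degree E + 1 - γ := by
  classical
  choose y hy using fun j : Fin γ => hsurj (Pi.single j 1)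
  set P : Divisor K F := ∑ j, poleDiv K (y j) with hP
  have hPv : ∀ (v : Place K F) (j : Fin γ), -v.ord (y j) ≤ P v := by
    intro v j
    rw [hP, Finsupp.finsetSum_apply]
    have h3 : poleDiv K (y j) v ≤ ∑ i, poleDiv K (y i) v :=
      Finset.single_le_sum (f := fun i => poleDiv K (y i) v)
        (fun i _ => by rw [poleDiv_apply h]; exact le_max_right _ _) (Finset.mem_univ j)
    rw [poleDiv_apply h] at h3
    exact (le_max_left _ _).trans h3
  have hP0 : ∀ v : Place K F, 0 ≤ P v := by
    intro v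
    rw [hP, Finsupp.finsetSum_apply]
    exact Finset.sum_nonneg fun i _ => by rw [poleDiv_apply h]; exact le_max_right _ _
  obtain ⟨M, hM⟩ := wa_bound S (fun v => P v)
  set m : ℤ := max (max M c) 0 with hm
  have hm0 : 0 ≤ m := le_max_right _ _
  have hmc : c ≤ m := (le_max_right _ _).trans (le_max_left _ _)
  have hmM : ∀ v ∈ S, P v ≤ m := fun v hv =>
    (hM v hv).trans ((le_max_left _ _).trans (le_max_left _ _))
  set E : Divisor K F := Finsupp.indicator S (fun _ _ => m) with hE
  set G : Divisor K F := P.filter (fun v => v ∉ S) with hG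
  have hE1 : ∀ v ∈ S, E v = m := fun v hv => Finsupp.indicator_of_mem hv _
  have hE2 : ∀ v, v ∉ S → E v = 0 := fun v hv => Finsupp.indicator_of_notMem hv _
  have hG1 : ∀ v ∈ S, G v = 0 := fun v hv => Finsupp.filter_apply_neg _ _ (by simpa using hv)
  have hG2 : ∀ v, v ∉ S → G v = P v := fun v hv => Finsupp.filter_apply_pos _ _ hv
  have hdegE : Divisor.degree E = S.card * m := by
    rw [degree_eq_sum h E S (Finsupp.support_indicator_subset _ _),
      Finset.sum_congr rfl hE1, Finset.sum_const, nsmul_eq_mul]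
  have hcard : (1 : ℤ) ≤ S.card := by exact_mod_cast hS.card_pos
  have hE0 : (0 : Divisor K F) ≤ E := by
    intro v
    by_cases hv : v ∈ S
    · rw [hE1 v hv]; exact hm0
    · rw [hE2 v hv]; rfl
  have hG0 : (0 : Divisor K F) ≤ G := by
    intro v
    by_cases hv : v ∈ S
    · rw [hG1 v hv]; rfl
    · rw [hG2 v hv]; exact hP0 v
  refine ⟨E, ?_, ?_⟩
  · rw [hdegE]
    nlinarith
  haveI := finiteDimensional_L h E
  haveI := finiteDimensional_L h G
  haveI := finiteDimensional_L h (E + G)
  haveI := finiteDimensional_L h (0 : Divisor K F)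
  set U₁ := riemannRochSpace E with hU₁
  set U₂ := riemannRochSpace G with hU₂
  set Y := riemannRochSpace (E + G) with hY
  set Z := Submodule.span K (Set.range y) with hZ
  have hk1 : U₁ ≤ LinearMap.ker Λ := by
    intro f hf
    rw [LinearMap.mem_ker]
    apply h2
    intro Q hQ
    have := (mem_L_iff.1 hf) Q
    rw [hE2 Q hQ, neg_zero] at this
    exact wd_ord_nonneg this
  have hk2 : U₂ ≤ LinearMap.ker Λ := by
    intro f hf
    rw [LinearMap.mem_ker]
    apply h1
    intro Q hQ
    have := (mem_L_iff.1 hf) Q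
    rw [hG1 Q hQ, neg_zero] at this
    exact wd_ord_nonneg this
  have hinf : U₁ ⊓ U₂ ≤ riemannRochSpace (0 : Divisor K F) := by
    rintro f ⟨hf1, hf2⟩
    rw [mem_L_iff]
    intro Q
    by_cases hQ : Q ∈ S
    · have := (mem_L_iff.1 hf2) Q
      rwa [hG1 Q hQ] at this
    · have := (mem_L_iff.1 hf1) Q
      rwa [hE2 Q hQ] at this
  have hli : LinearIndependent K y := by
    apply LinearIndependent.of_comp Λ
    have : Λ ∘ y = Pi.basisFun K (Fin γ) := by
      funext j
      rw [Function.comp_apply, hy, Pi.basisFun_apply]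
    rw [this]
    exact (Pi.basisFun K (Fin γ)).linearIndependent
  have hZfin : Module.finrank K Z = γ := by
    rw [hZ, finrank_span_eq_card hli, Fintype.card_fin]
  haveI : FiniteDimensional K Z := FiniteDimensional.span_of_finite K (Set.finite_range y)
  have hZker : (U₁ ⊔ U₂) ⊓ Z = ⊥ := by
    rw [eq_bot_iff]
    rintro z ⟨hz1, hz2⟩
    have hz3 : Λ z = 0 := (sup_le hk1 hk2) hz1
    obtain ⟨a, rfl⟩ := (Submodule.mem_span_range_iff_exists_fun K).1 hz2
    rw [map_sum] at hz3
    simp only [map_smul, hy] at hz3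
    have ha : ∀ j, a j = 0 := by
      intro j
      have := congrFun hz3 j
      simpa [Finset.sum_apply, Pi.single_apply] using this
    simp [ha]
  have hZY : Z ≤ Y := by
    rw [hZ, Submodule.span_le]
    rintro _ ⟨j, rfl⟩
    rw [SetLike.mem_coe, hY, mem_L_iff]
    intro v
    right
    rw [Finsupp.add_apply]
    by_cases hv : v ∈ S
    · rw [hE1 v hv, hG1 v hv]
      have := hPv v j
      have := hmM v hv
      omega
    · rw [hE2 v hv, hG2 v hv]
      have := hPv v j
      omega
  have hU₁Y : U₁ ≤ Y := L_mono (le_add_of_nonneg_right hG0)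
  have hU₂Y : U₂ ≤ Y := L_mono (le_add_of_nonneg_left hE0)
  have e1 := Submodule.finrank_sup_add_finrank_inf_eq U₁ U₂
  have e2 : Module.finrank K (U₁ ⊓ U₂ : Submodule K F) ≤ 1 := by
    have := Submodule.finrank_mono hinf
    have h0 := ell_zero h
    unfold ell at h0
    omega
  have e3 := Submodule.finrank_sup_add_finrank_inf_eq (U₁ ⊔ U₂) Z
  rw [hZker, finrank_bot, hZfin] at e3
  have e4 : Module.finrank K ((U₁ ⊔ U₂) ⊔ Z : Submodule K F) ≤ Module.finrank K Y :=
    Submodule.finrank_mono (sup_le (sup_le hU₁Y hU₂Y) hZY)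
  have e5 := ell_le_add h (A := G) (B := E + G) (le_add_of_nonneg_left hE0)
  rw [map_add] at e5
  have e6 : ell E = Module.finrank K U₁ := rfl
  have e7 : ell G = Module.finrank K U₂ := rfl
  have e8 : ell (E + G) = Module.finrank K Y := rfl
  omega

end Fermat.Agent.FFLib
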