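import Fermat.Agent.Lib.FF.Riemann
import Fermat.Agent.Lib.FF.WeilBound
import Fermat.Agent.Lib.FF.LocalTrace
import Fermat.Agent.Lib.FF.RatOrd

/-!
# (TF) a lower bound for the genus from "tamely regular" differentials `ω dt`
-/

set_option autoImplicit false

open AlgebraicCurve IntermediateField Polynomial Fermat.Agent.S24Lib

namespace Fermat.Agent.FFLib

variable {K F : Type*} [Field K] [Field F] [Algebra K F]

theorem tf_ge_algebraMap (Q : Place K F) (c : K) : D2_ge Q 0 (algebraMap K F c) :=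
  Or.inr (by rw [ord_algebraMap])

theorem tf_ge_zero_iff (Q : Place K F) (r : F) : D2_ge Q 0 r ↔ 0 ≤ Q.ord r := by
  constructor
  · rintro (rfl | h)
    · simp
    · exact h
  · exact fun h => Or.inr h

/-- functions with order at least `n Q` at all places `Q` satisfying `P` -/
def tfSub (P : Place K F → Prop) (n : Place K F → ℤ) : Submodule K F where
  carrier := {r | ∀ Q, P Q → D2_ge Q (n Q) r}
  zero_mem' := fun Q _ => D2.ge_zero Q _
  add_mem' := fun ha hb Q hQ => D2.ge_add Q (ha Q hQ) (hb Q hQ)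
  smul_mem' := fun c r hr Q hQ => by
    rw [Algebra.smul_def]
    have := D2.ge_mul Q (tf_ge_algebraMap Q c) (hr Q hQ)
    rwa [zero_add] at this

theorem exists_res [IsAlgClosed K] (h : IsFF K F) {t : F} (ht : Transcendental K t) :
    ∃ res : F →ₗ[K] K, res t⁻¹ = 1 ∧
      (∀ r : F, (∀ Q : Place K F, 0 ≤ Q.ord t → 0 ≤ Q.ord r) → res r = 0) ∧
      (∀ r : F, (∀ Q : Place K F, Q.ord t < 0 → D2_ge Q (-2 * Q.ord t) r) → res r = 0) := by
  have ht0 : t ≠ 0 := by
    rintro rfl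
    exact ht isAlgebraic_zero
  set Bp : Submodule K F := tfSub (fun Q => 0 ≤ Q.ord t) (fun _ => 0) with hBp
  set Rm : Submodule K F := tfSub (fun Q => Q.ord t < 0) (fun Q => -2 * Q.ord t) with hRm
  have hnot : t⁻¹ ∉ Bp ⊔ Rm := by
    intro hmem
    obtain ⟨p, hp, r, hr, hpr⟩ := Submodule.mem_sup.mp hmem
    obtain ⟨Q₁, hQ₁⟩ := exists_place_ord_pos h (dg_transcendental_inv ht)
    rw [Q₁.ord_inv] at hQ₁
    -- `p = t⁻¹ - r` has positive order at the poles of `t`
    have hp' : ∀ Q : Place K F, Q.ord t < 0 → D2_ge Q 1 p := by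
      intro Q hQ
      have h1 : p = t⁻¹ - r := by rw [← hpr]; ring
      rw [h1]
      apply D2.ge_sub
      · right; rw [Q.ord_inv]; omega
      · have hrQ : D2_ge Q (-2 * Q.ord t) r := hr Q hQ
        exact D2.ge_mono Q (by omega) hrQ
    have hp0 : p ∈ riemannRochSpace (0 : Divisor K F) := by
      rw [mem_L_iff]
      intro Q
      rw [Finsupp.zero_apply, neg_zero]
      rcases lt_or_ge (Q.ord t) 0 with hQ | hQ
      · exact D2.ge_mono Q (by omega) (hp' Q hQ)
      · exact hp Q hQ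
    obtain ⟨c, hc⟩ := (mem_L_zero_iff h p).mp hp0
    have hpz : p = 0 := by
      rcases hp' Q₁ (by omega) with h0 | h0
      · exact h0
      · rw [← hc] at h0
        change 1 ≤ Q₁.ord (algebraMap K F c) at h0
        rw [ord_algebraMap] at h0
        omega
    rw [hpz, zero_add] at hpr
    have hrQ : D2_ge Q₁ (-2 * Q₁.ord t) r := hr Q₁ (by omega)
    rcases hrQ with h0 | h0
    · rw [hpr] at h0
      exact inv_ne_zero ht0 h0
    · rw [hpr, Q₁.ord_inv] at h0
      omega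
  obtain ⟨f, hf, hle⟩ := Submodule.exists_le_ker_of_notMem hnot
  refine ⟨(f t⁻¹)⁻¹ • f, ?_, ?_, ?_⟩
  · simp [hf]
  · intro r hr
    have : r ∈ Bp ⊔ Rm := Submodule.mem_sup_left (fun Q hQ => Or.inr (hr Q hQ))
    have h0 : f r = 0 := hle this
    simp [h0]
  · intro r hr
    have : r ∈ Bp ⊔ Rm := Submodule.mem_sup_right (fun Q hQ => hr Q hQ)
    have h0 : f r = 0 := hle this
    simp [h0]

section main

variable [IsAlgClosed K] (h : IsFF K F) {t : F} (ht : Transcendental K t)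
  [FiniteDimensional K⟮t⟯ F] [Algebra.IsSeparable K⟮t⟯ F]

include h ht

theorem tf_trace_fin (y ω : F)
    (hfin : ∀ (Q : Place K F) (c : K), 0 < Q.ord (t - algebraMap K F c) →
      D2_ge Q (1 - Q.ord (t - algebraMap K F c)) ω)
    (hy : ∀ Q : Place K F, 0 ≤ Q.ord t → 0 ≤ Q.ord y) (Q₀ : Place K F) (hQ₀ : 0 ≤ Q₀.ord t) :
    0 ≤ Q₀.ord ((Algebra.trace K⟮t⟯ F (y * ω) : K⟮t⟯) : F) := by
  have ht0 : t ≠ 0 := by
    rintro rfl
    exact ht isAlgebraic_zero
  obtain ⟨c, hc⟩ := exists_residue h Q₀ hQ₀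
  have hc' : 0 < Q₀.ord (t - algebraMap K F c) := by
    rcases hc with hc | hc
    · exact absurd (hc ▸ isAlgebraic_algebraMap c) ht
    · exact hc
  set s : F := t - algebraMap K F c with hs
  have hsmem : s ∈ K⟮t⟯ := sub_mem (mem_adjoin_simple_self K t) (IntermediateField.algebraMap_mem _ c)
  set sL : K⟮t⟯ := ⟨s, hsmem⟩ with hsL
  have hs0 : s ≠ 0 := by
    intro h0
    rw [h0] at hc'
    simp at hc'
  have key := ord_trace_pos h K⟮t⟯ Q₀ (s * (y * ω)) (by
    intro Q hQ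
    have h1 : 0 < Q.ord s := hQ sL hc'
    have h2 : 0 ≤ Q.ord t := by
      have h3 : t = s + algebraMap K F c := by rw [hs]; ring
      have h4 := min_le_ord_add Q (f := s) (g := algebraMap K F c) (by rw [← h3]; exact ht0)
      rw [← h3, ord_algebraMap] at h4
      have : 0 ≤ min (Q.ord s) 0 := le_min h1.le le_rfl
      omega
    have h5 := D2.ge_mul Q (D2.ge_of_ord Q (le_refl (Q.ord s)))
      (D2.ge_mul Q ((tf_ge_zero_iff Q y).mpr (hy Q h2)) (hfin Q c h1))
    have h6 : Q.ord s + (0 + (1 - Q.ord s)) = 1 := by ring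
    rwa [h6] at h5)
  have hlin : Algebra.trace K⟮t⟯ F (s * (y * ω)) = sL * Algebra.trace K⟮t⟯ F (y * ω) := by
    have : s * (y * ω) = sL • (y * ω) := by rw [Algebra.smul_def]; rfl
    rw [this, map_smul, smul_eq_mul]
  rw [hlin] at key
  set r : K⟮t⟯ := Algebra.trace K⟮t⟯ F (y * ω) with hr
  by_cases hr0 : r = 0
  · rw [hr0]; simp
  obtain ⟨a, ha⟩ := exists_ord_eq_mul_of_zero r hr0 c
  have hrF : (r : F) ≠ 0 := by simpa using hr0
  have h7 : ((sL * r : K⟮t⟯) : F) = s * (r : F) := rfl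
  rw [h7] at key
  rcases key with h0 | h0
  · exact absurd h0 (mul_ne_zero hs0 hrF)
  · rw [Q₀.ord_mul hs0 hrF, ha Q₀ hc'] at h0
    rw [ha Q₀ hc']
    have h8 : 0 ≤ a := by
      by_contra hneg
      push Not at hneg
      have : (1 + a) * Q₀.ord s ≤ 0 := mul_nonpos_of_nonpos_of_nonneg (by omega) hc'.le
      nlinarith
    exact mul_nonneg h8 hc'.le

omit [IsAlgClosed K] in
theorem tf_trace_inf (y ω : F)
    (hinf : ∀ Q : Place K F, Q.ord t < 0 → D2_ge Q (1 - Q.ord t) ω)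
    (hy : ∀ Q : Place K F, Q.ord t < 0 → 0 ≤ Q.ord y) (Q₀ : Place K F) (hQ₀ : Q₀.ord t < 0) :
    D2_ge Q₀ (-2 * Q₀.ord t) ((Algebra.trace K⟮t⟯ F (y * ω) : K⟮t⟯) : F) := by
  have ht0 : t ≠ 0 := by
    rintro rfl
    exact ht isAlgebraic_zero
  set tL : K⟮t⟯ := AdjoinSimple.gen K t with htL
  have key := ord_trace_pos h K⟮t⟯ Q₀ (t * (y * ω)) (by
    intro Q hQ
    have h1 : 0 < Q.ord ((tL⁻¹ : K⟮t⟯) : F) := hQ tL⁻¹ (by
      have : ((tL⁻¹ : K⟮t⟯) : F) = t⁻¹ := by simp [htL]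
      rw [this, Q₀.ord_inv]; omega)
    have h2 : Q.ord t < 0 := by
      have : ((tL⁻¹ : K⟮t⟯) : F) = t⁻¹ := by simp [htL]
      rw [this, Q.ord_inv] at h1; omega
    have h5 := D2.ge_mul Q (D2.ge_of_ord Q (le_refl (Q.ord t)))
      (D2.ge_mul Q ((tf_ge_zero_iff Q y).mpr (hy Q h2)) (hinf Q h2))
    have h6 : Q.ord t + (0 + (1 - Q.ord t)) = 1 := by ring
    rwa [h6] at h5)
  have hlin : Algebra.trace K⟮t⟯ F (t * (y * ω)) = tL * Algebra.trace K⟮t⟯ F (y * ω) := by
    have : t * (y * ω) = tL • (y * ω) := by rw [Algebra.smul_def]; rfl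
    rw [this, map_smul, smul_eq_mul]
  rw [hlin] at key
  set r : K⟮t⟯ := Algebra.trace K⟮t⟯ F (y * ω) with hr
  by_cases hr0 : r = 0
  · left; rw [hr0]; simp
  obtain ⟨a, ha⟩ := exists_ord_eq_mul_of_pole r hr0
  have hrF : (r : F) ≠ 0 := by simpa using hr0
  have h7 : ((tL * r : K⟮t⟯) : F) = t * (r : F) := rfl
  rw [h7] at key
  right
  rcases key with h0 | h0
  · exact absurd h0 (mul_ne_zero ht0 hrF)
  · rw [Q₀.ord_mul ht0 hrF, ha Q₀ hQ₀] at h0
    rw [ha Q₀ hQ₀]
    have h8 : a ≤ -2 := by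
      by_contra hneg
      push Not at hneg
      have : (1 + a) * Q₀.ord t ≤ 0 := mul_nonpos_of_nonneg_of_nonpos (by omega) hQ₀.le
      nlinarith
    nlinarith

end main

theorem exists_ell_le_of_differentials [IsAlgClosed K] (h : IsFF K F) {t : F}
    (ht : Transcendental K t) [Algebra.IsSeparable K⟮t⟯ F] {γ : ℕ} (ω : Fin γ → F)
    (hω : LinearIndependent K ω)
    (hfin : ∀ i (Q : Place K F) (c : K), 0 < Q.ord (t - algebraMap K F c) →
      D2_ge Q (1 - Q.ord (t - algebraMap K F c)) (ω i))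
    (hinf : ∀ i (Q : Place K F), Q.ord t < 0 → D2_ge Q (1 - Q.ord t) (ω i)) (c : ℤ) :
    ∃ E : Divisor K F, c ≤ Divisor.degree E ∧ (ell E : ℤ) ≤ Divisor.degree E + 1 - γ := by
  classical
  have hfd : FiniteDimensional K⟮t⟯ F := h.finiteDimensional ht
  have ht0 : t ≠ 0 := by
    rintro rfl
    exact ht isAlgebraic_zero
  obtain ⟨res, hres1, hres2, hres3⟩ := exists_res h ht
  -- the functional `z ↦ res (Tr z)`
  set ψ : F →ₗ[K] K :=
    res ∘ₗ (K⟮t⟯.val.toLinearMap) ∘ₗ ((Algebra.trace K⟮t⟯ F).restrictScalars K) with hψ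
  have hψa : ∀ z, ψ z = res ((Algebra.trace K⟮t⟯ F z : K⟮t⟯) : F) := fun z => rfl
  set Λ : F →ₗ[K] (Fin γ → K) := LinearMap.pi (fun i => ψ ∘ₗ LinearMap.mulRight K (ω i)) with hΛ
  have hΛa : ∀ y i, Λ y i = ψ (y * ω i) := fun y i => rfl
  set S : Finset (Place K F) := (finite_ord_ne_zero h t).toFinset.filter (fun Q => Q.ord t < 0)
    with hS
  have hSmem : ∀ Q, Q ∈ S ↔ Q.ord t < 0 := by
    intro Q
    simp only [hS, Finset.mem_filter, Set.Finite.mem_toFinset, Set.mem_ofPred_eq]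
    constructor
    · exact fun hh => hh.2
    · exact fun hh => ⟨by omega, hh⟩
  have hSne : S.Nonempty := by
    obtain ⟨Q₁, hQ₁⟩ := exists_place_ord_pos h (dg_transcendental_inv ht)
    rw [Q₁.ord_inv] at hQ₁
    exact ⟨Q₁, (hSmem Q₁).mpr (by omega)⟩
  refine exists_ell_le_of_functionals h S hSne Λ ?_ ?_ ?_ c
  · -- surjectivity
    by_contra hns
    have hlt : LinearMap.range Λ < ⊤ := lt_top_iff_ne_top.mpr (fun htop => hns (LinearMap.range_eq_top.mp htop))
    obtain ⟨φ, hφ0, hφ⟩ := Submodule.exists_le_ker_of_lt_top _ hlt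
    set a : Fin γ → K := fun i => φ (fun j => if i = j then 1 else 0) with ha
    have hφa : ∀ x : Fin γ → K, φ x = ∑ i, x i * a i := by
      intro x
      rw [LinearMap.pi_apply_eq_sum_univ φ x]
      simp [ha, smul_eq_mul]
    have ha0 : ¬ ∀ i, a i = 0 := by
      intro hall
      apply hφ0
      apply LinearMap.ext
      intro x
      rw [hφa]
      simp [hall]
    set ω' : F := ∑ i, a i • ω i with hω'
    have hω'0 : ω' ≠ 0 := by
      intro h0
      exact ha0 (fun i => (Fintype.linearIndependent_iff.mp hω) a h0 i)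
    obtain ⟨y₁, hy₁⟩ := Algebra.trace_surjective K⟮t⟯ F 1
    set y : F := y₁ * (t * ω')⁻¹ with hy
    have h1 : φ (Λ y) = 0 := hφ ⟨y, rfl⟩
    rw [hφa] at h1
    have h2 : ∑ i, Λ y i * a i = ψ (y * ω') := by
      rw [hω', Finset.mul_sum, map_sum]
      refine Finset.sum_congr rfl fun i _ => ?_
      rw [hΛa, mul_smul_comm, map_smul, smul_eq_mul, mul_comm]
    rw [h2, hψa] at h1
    have h3 : y * ω' = (AdjoinSimple.gen K t)⁻¹ • y₁ := by
      rw [Algebra.smul_def]
      have : algebraMap K⟮t⟯ F (AdjoinSimple.gen K t)⁻¹ = t⁻¹ := by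
        rw [map_inv₀]; simp
      rw [this, hy]
      field_simp
    rw [h3, map_smul, hy₁, smul_eq_mul, mul_one] at h1
    have h4 : (((AdjoinSimple.gen K t)⁻¹ : K⟮t⟯) : F) = t⁻¹ := by simp
    rw [h4, hres1] at h1
    exact one_ne_zero h1
  · intro y hy
    ext i
    rw [hΛa, hψa, Pi.zero_apply]
    apply hres3
    intro Q hQ
    exact tf_trace_inf h ht y (ω i) (hinf i) (fun Q' hQ' => hy Q' ((hSmem Q').mpr hQ')) Q hQ
  · intro y hy
    ext i
    rw [hΛa, hψa, Pi.zero_apply]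
    apply hres2
    intro Q hQ
    exact tf_trace_fin h ht y (ω i) (hfin i)
      (fun Q' hQ' => hy Q' (fun hmem => by have := (hSmem Q').mp hmem; omega)) Q hQ

end Fermat.Agent.FFLib
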